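/-
TR / Unit : the modular unit `f_Δ = Δ(q)/Δ(q^ℓ)` at BAD's two-valuation level `M·ℓ`
(residue characteristic `ℓ`).

`F = L·F_{Mℓ}` (`laurentBaseChange L (modularFunctionFieldFull (M * ℓ))`), `O_∞ = OInf h`,
`O_0 = OZero h W` (`W` the Atkin–Lehner involution, `IsAL M ℓ W`), `red_∞`, `red_0` the residue
maps onto the mod-`ℓ` function field of level `M`.

Everything is stated for an ARBITRARY element `f` of `F` with `q`-expansion
`Units.u1 L ℓ = Δ(q)/Δ(q^ℓ)`; `g` denotes `ℓ¹² · f⁻¹ = ℓ¹² Δ(q^ℓ)/Δ(q)`.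

* (F0) `exists_fDelta` : such an `f` exists (`fDelta L M ℓ hℓ`);
* (F1) `W_f` : `W f = ℓ¹² · f⁻¹`; `W_g` : `W (ℓ¹² · f⁻¹) = f`; `f_mul_g : f * g = ℓ¹²`;
* (F2) column `∞` : `f`, `f⁻¹ ∈ O_∞`, `red_∞ f = u1 k ℓ = Δ̄^(1-ℓ) ≠ 0`, `g ∈ O_∞` with
  `red_∞ g = 0`;
* (F3) column `0` : `f ∈ O_0` with `red_0 f = 0`; `g ∈ O_0` with `red_0 g = red_∞ f ≠ 0`;
  `f / ℓ¹² ∈ O_0` and its inverse `g` too (so `v_0 f = 12 · v_0 ℓ`); `IsUnif` forms
  `ord_inf_f`, `ord_zero_f`;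
* (F4) integrality : `f` and `g` are integral over every ring over which `α(J)` is
  (no zeros or poles off the cusps).
-/
import Mathlib
import Fermat.Agent.BAD.TwoVal.Pair
import Fermat.Agent.CAR.V3.UnitRel
import Fermat.Agent.CAR.V3.UnitCert
import Fermat.Agent.CAR.Formal.DiscVal

set_option autoImplicit false
set_option linter.style.haveILetI false

noncomputable section

namespace Fermat.Agent.TR.Unit.FDelta

open HahnSeries ModularCurve AlgebraicCurve Fermat.Agent.Lib.Red Fermat.Agent.S28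
open Fermat.Agent.ESJ.Cong.LevelGen Fermat.Agent.BAD.TwoVal Fermat.Agent.S28.ModEq
open Fermat.Agent.CAR.V3 Fermat.Agent.CAR.Formal

/-! ### Series level: the Gauss ring -/

section Series

variable {L : Type*} [Field L] (A : ValuationSubring L) {k : Type*} [Field k] (π : A →+* k)
  (p : ℕ)

theorem natCast_pow_mem : ((p : L)) ^ 12 ∈ A := A.pow_mem (natCast_mem A p) 12

/-- `p¹² · g` lies in the Gauss ring. -/
theorem C_mul_mem {g : LaurentSeries L} (hg : g ∈ gaussRing A π) :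
    HahnSeries.C ((p : L) ^ 12) * g ∈ gaussRing A π :=
  (gaussRing A π).mul_mem (C_mem_gaussRing A π (natCast_pow_mem A p)) hg

/-- `p¹² · g` reduces to `0` when `p = 0` in `k`. -/
theorem red_C_mul (hpk : (p : k) = 0) {g : LaurentSeries L} (hg : g ∈ gaussRing A π)
    (h : HahnSeries.C ((p : L) ^ 12) * g ∈ gaussRing A π) :
    red A π ⟨HahnSeries.C ((p : L) ^ 12) * g, h⟩ = 0 := by
  have hC : HahnSeries.C ((p : L) ^ 12) ∈ gaussRing A π :=
    C_mem_gaussRing A π (natCast_pow_mem A p)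
  have e : (⟨HahnSeries.C ((p : L) ^ 12) * g, h⟩ : gaussRing A π) =
      ⟨HahnSeries.C ((p : L) ^ 12), hC⟩ * ⟨g, hg⟩ := rfl
  have e2 : (⟨(p : L) ^ 12, natCast_pow_mem A p⟩ : A) = (p : A) ^ 12 := by
    apply Subtype.ext
    simp
  rw [e, map_mul, red_C A π (natCast_pow_mem A p) hC, e2, map_pow, map_natCast, hpk,
    zero_pow (by norm_num), map_zero, zero_mul]

end Series

/-! ### The function `f_Δ` and the Atkin–Lehner involution -/

section AL

variable {L : Type*} [Field L] [Algebra ℚ L] {M ℓ : ℕ} [NeZero M] [NeZero ℓ]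
  {W : laurentBaseChange L (modularFunctionFieldFull (M * ℓ)) ≃ₐ[L]
    laurentBaseChange L (modularFunctionFieldFull (M * ℓ))}
  {f : laurentBaseChange L (modularFunctionFieldFull (M * ℓ))}

omit [NeZero M] [NeZero ℓ] in
theorem C_natCast_pow_ne_zero (hℓ : ℓ.Prime) :
    (HahnSeries.C ((ℓ : L) ^ 12) : LaurentSeries L) ≠ 0 := by
  have hchar : CharZero L := algebraRat.charZero L
  intro h
  have h3 : (HahnSeries.C ((ℓ : L) ^ 12) : LaurentSeries L) = HahnSeries.C 0 := by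
    rw [h, map_zero]
  exact pow_ne_zero 12 (Nat.cast_ne_zero.mpr hℓ.ne_zero) (HahnSeries.C_injective h3)

/-- `J(q)` at level `Mℓ`: the `q`-expansion of `α(J)`. -/
theorem coe_alpha_j :
    ((heckeAlphaBar L M ℓ (jLevel L M) : laurentBaseChange L (modularFunctionFieldFull (M * ℓ))) :
      LaurentSeries L) = jqModC L := by
  rw [coe_heckeAlphaBar, coe_jLevel, TD.Jd_one]

/-- `J(q^ℓ)` at level `Mℓ`: the `q`-expansion of `β(J)`. -/
theorem coe_beta_j :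
    ((heckeBetaBar L M ℓ (jLevel L M) : laurentBaseChange L (modularFunctionFieldFull (M * ℓ))) :
      LaurentSeries L) = jqNModC L ℓ := by
  rw [coe_heckeBetaBar_jLevel, TD.Jd_eq_jqNModC]

theorem jq_mem_F : jqModC L ∈ laurentBaseChange L (modularFunctionFieldFull (M * ℓ)) := by
  have h := (heckeAlphaBar L M ℓ (jLevel L M)).2
  rw [coe_alpha_j] at h
  exact h

theorem jqN_mem_F : jqNModC L ℓ ∈ laurentBaseChange L (modularFunctionFieldFull (M * ℓ)) := by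
  have h := (heckeBetaBar L M ℓ (jLevel L M)).2
  rw [coe_beta_j] at h
  exact h

/-- `u₁ = Δ(q)/Δ(q^ℓ)` is a function of level `Mℓ`. -/
theorem u1_mem_F (hℓ : ℓ.Prime) :
    Units.u1 L ℓ ∈ laurentBaseChange L (modularFunctionFieldFull (M * ℓ)) := by
  have hchar : CharZero L := algebraRat.charZero L
  exact Units.u1_mem hℓ (laurentBaseChange L (modularFunctionFieldFull (M * ℓ))).toSubfield
    jq_mem_F jqN_mem_F

variable (L M ℓ) in
/-- **`f_Δ = Δ(q)/Δ(q^ℓ)`** as a function of level `Mℓ`. -/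
def fDelta (hℓ : ℓ.Prime) : laurentBaseChange L (modularFunctionFieldFull (M * ℓ)) :=
  ⟨Units.u1 L ℓ, u1_mem_F hℓ⟩

theorem coe_fDelta (hℓ : ℓ.Prime) :
    ((fDelta L M ℓ hℓ : laurentBaseChange L (modularFunctionFieldFull (M * ℓ))) :
      LaurentSeries L) = Units.u1 L ℓ := rfl

/-- **(F0)** `f_Δ` exists in `F = L·F_{Mℓ}`. -/
theorem exists_fDelta (hℓ : ℓ.Prime) :
    ∃ f : laurentBaseChange L (modularFunctionFieldFull (M * ℓ)),
      (f : LaurentSeries L) = Units.u1 L ℓ :=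
  ⟨fDelta L M ℓ hℓ, rfl⟩

omit [NeZero M] in
theorem f_ne_zero (hf : (f : LaurentSeries L) = Units.u1 L ℓ) : f ≠ 0 := by
  intro h0
  rw [h0] at hf
  exact UnitCert.u1_ne_zero ℓ L hf.symm

omit [NeZero M] in
/-- The `q`-expansion of `f⁻¹`. -/
theorem coe_inv_f (hf : (f : LaurentSeries L) = Units.u1 L ℓ) :
    ((f⁻¹ : laurentBaseChange L (modularFunctionFieldFull (M * ℓ))) : LaurentSeries L) =
      Units.u1inv L ℓ := by
  rw [IntermediateField.coe_inv, hf, ← UnitCert.u1inv_eq_inv]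

omit [NeZero M] in
/-- The `q`-expansion of `g = ℓ¹² · f⁻¹`. -/
theorem coe_g (hf : (f : LaurentSeries L) = Units.u1 L ℓ) :
    ((((ℓ : ℕ) : laurentBaseChange L (modularFunctionFieldFull (M * ℓ))) ^ 12 * f⁻¹ :
      laurentBaseChange L (modularFunctionFieldFull (M * ℓ))) : LaurentSeries L) =
      HahnSeries.C ((ℓ : L) ^ 12) * Units.u1inv L ℓ := by
  rw [MulMemClass.coe_mul, coe_inv_f hf, SubmonoidClass.coe_pow, SubringClass.coe_natCast,
    map_pow, map_natCast]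

omit [NeZero M] in
/-- The `q`-expansion of `f / ℓ¹²`. -/
theorem coe_f_div (hf : (f : LaurentSeries L) = Units.u1 L ℓ) :
    ((f / ((ℓ : ℕ) : laurentBaseChange L (modularFunctionFieldFull (M * ℓ))) ^ 12 :
      laurentBaseChange L (modularFunctionFieldFull (M * ℓ))) : LaurentSeries L) =
      Units.u1 L ℓ / HahnSeries.C ((ℓ : L) ^ 12) := by
  rw [IntermediateField.coe_div, hf, SubmonoidClass.coe_pow, SubringClass.coe_natCast,
    map_pow, map_natCast]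

omit [NeZero M] [NeZero ℓ] in
theorem natCast_pow_ne_zero (hℓ : ℓ.Prime) :
    ((ℓ : ℕ) : laurentBaseChange L (modularFunctionFieldFull (M * ℓ))) ^ 12 ≠ 0 := by
  have hchar : CharZero L := algebraRat.charZero L
  have : CharZero ↥(laurentBaseChange L (modularFunctionFieldFull (M * ℓ))) :=
    charZero_of_injective_algebraMap
      (algebraMap L ↥(laurentBaseChange L (modularFunctionFieldFull (M * ℓ)))).injective
  exact pow_ne_zero 12 (Nat.cast_ne_zero.mpr hℓ.ne_zero)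

omit [NeZero M] in
/-- `f * (ℓ¹² · f⁻¹) = ℓ¹²`. -/
theorem f_mul_g (hf : (f : LaurentSeries L) = Units.u1 L ℓ) :
    f * (((ℓ : ℕ) : laurentBaseChange L (modularFunctionFieldFull (M * ℓ))) ^ 12 * f⁻¹) =
      ((ℓ : ℕ) : laurentBaseChange L (modularFunctionFieldFull (M * ℓ))) ^ 12 := by
  rw [mul_left_comm, mul_inv_cancel₀ (f_ne_zero hf), mul_one]

omit [NeZero M] in
theorem g_ne_zero (hℓ : ℓ.Prime) (hf : (f : LaurentSeries L) = Units.u1 L ℓ) :
    ((ℓ : ℕ) : laurentBaseChange L (modularFunctionFieldFull (M * ℓ))) ^ 12 * f⁻¹ ≠ 0 :=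
  mul_ne_zero (natCast_pow_ne_zero hℓ) (inv_ne_zero (f_ne_zero hf))

/-- **`W f = ℓ¹²/f`**, as `q`-expansions. -/
theorem coe_W_f (hℓ : ℓ.Prime) (hW : IsAL M ℓ W)
    (hf : (f : LaurentSeries L) = Units.u1 L ℓ) :
    ((W f : laurentBaseChange L (modularFunctionFieldFull (M * ℓ))) : LaurentSeries L) =
      HahnSeries.C ((ℓ : L) ^ 12) * Units.u1inv L ℓ := by
  have hchar : CharZero L := algebraRat.charZero L
  obtain ⟨ι, hι⟩ : ∃ ι : laurentBaseChange L (modularFunctionFieldFull (M * ℓ)) →+*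
      LaurentSeries L, ∀ y, ι y = (y : LaurentSeries L) :=
    ⟨((laurentBaseChange L (modularFunctionFieldFull (M * ℓ))).val :
      laurentBaseChange L (modularFunctionFieldFull (M * ℓ)) →+* LaurentSeries L),
      fun _ => rfl⟩
  have hιinj : Function.Injective ι := by
    intro a b hab
    rw [hι, hι] at hab
    exact Subtype.ext hab
  obtain ⟨σ, hσ⟩ : ∃ σ : laurentBaseChange L (modularFunctionFieldFull (M * ℓ)) →+*
      LaurentSeries L, ∀ y, σ y = ι (W y) :=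
    ⟨ι.comp W.toRingEquiv.toRingHom, fun _ => rfl⟩
  obtain ⟨D⟩ := Units.exists_unitData ℓ hℓ
  have hR : Units.UnitRel D.toModEqData (heckeAlphaBar L M ℓ (jLevel L M))
      (heckeBetaBar L M ℓ (jLevel L M)) f :=
    Units.UnitRel.of_map ι hιinj (by
      rw [hι, hι, hι, coe_alpha_j, coe_beta_j, hf]
      exact Units.unitRel_u1 L D)
  have h := hR.map σ
  rw [hσ, hσ, hσ, hW.alpha, hW.beta, hι, hι, hι, coe_alpha_j, coe_beta_j] at h
  rw [Units.eq_yInf_of_unitRel hℓ D.toModEqData h, Units.yInf_eq]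

/-- **(F1) Atkin–Lehner**: `W f = ℓ¹² · f⁻¹`. -/
theorem W_f (hℓ : ℓ.Prime) (hW : IsAL M ℓ W) (hf : (f : LaurentSeries L) = Units.u1 L ℓ) :
    W f = ((ℓ : ℕ) : laurentBaseChange L (modularFunctionFieldFull (M * ℓ))) ^ 12 * f⁻¹ :=
  Subtype.ext ((coe_W_f hℓ hW hf).trans (coe_g hf).symm)

/-- **(F1')** `W (ℓ¹² · f⁻¹) = f`. -/
theorem W_g (hℓ : ℓ.Prime) (hℓM : ¬ ℓ ∣ M) (hW : IsAL M ℓ W)
    (hf : (f : LaurentSeries L) = Units.u1 L ℓ) :
    W (((ℓ : ℕ) : laurentBaseChange L (modularFunctionFieldFull (M * ℓ))) ^ 12 * f⁻¹) = f := by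
  rw [← W_f hℓ hW hf, hW.invol hℓ hℓM]

/-- `W (f⁻¹) = f / ℓ¹²`. -/
theorem W_inv_f (hℓ : ℓ.Prime) (hW : IsAL M ℓ W) (hf : (f : LaurentSeries L) = Units.u1 L ℓ) :
    W f⁻¹ = f / ((ℓ : ℕ) : laurentBaseChange L (modularFunctionFieldFull (M * ℓ))) ^ 12 := by
  rw [map_inv₀, W_f hℓ hW hf, mul_inv, inv_inv, div_eq_mul_inv]
  exact mul_comm _ _

/-- `W (f / ℓ¹²) = f⁻¹`. -/
theorem W_f_div (hℓ : ℓ.Prime) (hW : IsAL M ℓ W) (hf : (f : LaurentSeries L) = Units.u1 L ℓ) :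
    W (f / ((ℓ : ℕ) : laurentBaseChange L (modularFunctionFieldFull (M * ℓ))) ^ 12) = f⁻¹ := by
  rw [map_div₀, map_pow, map_natCast, W_f hℓ hW hf]
  exact mul_div_cancel_left₀ _ (natCast_pow_ne_zero hℓ)

end AL

/-! ### The two columns -/

section Cols

variable {L : Type*} [Field L] [Algebra ℚ L] {A : ValuationSubring L} {k : Type} [Field k]
  {π : A →+* k} {M ℓ : ℕ} [NeZero M] [NeZero ℓ]
  {W : laurentBaseChange L (modularFunctionFieldFull (M * ℓ)) ≃ₐ[L]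
    laurentBaseChange L (modularFunctionFieldFull (M * ℓ))}
  {f : laurentBaseChange L (modularFunctionFieldFull (M * ℓ))}

/-! #### (F2) the column at `∞` -/

/-- `f ∈ O_∞`. -/
theorem f_mem_OInf (h : BadSetup A π M ℓ) (hf : (f : LaurentSeries L) = Units.u1 L ℓ) :
    f ∈ OInf h := by
  rw [mem_OInf_iff, hf]
  exact UnitCert.u1_mem A π ℓ

/-- `red_∞ f = u1 k ℓ = Δ̄(q)/Δ̄(q^ℓ)`. -/
theorem coe_redInf_f (h : BadSetup A π M ℓ) (hf : (f : LaurentSeries L) = Units.u1 L ℓ)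
    (hm : f ∈ OInf h) :
    ((redInf h ⟨f, hm⟩ : modularFunctionFieldFullC k M) : LaurentSeries k) = Units.u1 k ℓ := by
  rw [coe_redInf, ← UnitCert.red_u1 A π ℓ (UnitCert.u1_mem A π ℓ)]
  congr 1
  exact Subtype.ext hf

/-- `red_∞ f = Δ̄^(1-ℓ)` (as `DAinv k ^ (ℓ - 1)`). -/
theorem coe_redInf_f_charP (h : BadSetup A π M ℓ) (hf : (f : LaurentSeries L) = Units.u1 L ℓ)
    (hm : f ∈ OInf h) :
    ((redInf h ⟨f, hm⟩ : modularFunctionFieldFullC k M) : LaurentSeries k) =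
      DAinv k ^ (ℓ - 1) := by
  have : Fact ℓ.Prime := ⟨h.hℓ⟩
  have : CharP k ℓ := h.charP
  rw [coe_redInf_f h hf hm, UnitCert.u1_charP]

theorem redInf_f_ne_zero (h : BadSetup A π M ℓ) (hf : (f : LaurentSeries L) = Units.u1 L ℓ)
    (hm : f ∈ OInf h) : redInf h ⟨f, hm⟩ ≠ 0 := by
  intro h0
  have h1 := coe_redInf_f h hf hm
  rw [h0] at h1
  exact UnitCert.u1_ne_zero ℓ k h1.symm

/-- `f⁻¹ ∈ O_∞` : `v_∞ f = 0`. -/
theorem inv_f_mem_OInf (h : BadSetup A π M ℓ) (hf : (f : LaurentSeries L) = Units.u1 L ℓ) :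
    f⁻¹ ∈ OInf h := by
  rw [mem_OInf_iff, coe_inv_f hf]
  exact UnitCert.u1inv_mem A π ℓ

/-- `red_∞ f⁻¹ = u1inv k ℓ = Δ̄(q^ℓ)/Δ̄(q)`. -/
theorem coe_redInf_inv_f (h : BadSetup A π M ℓ) (hf : (f : LaurentSeries L) = Units.u1 L ℓ)
    (hm : f⁻¹ ∈ OInf h) :
    ((redInf h ⟨f⁻¹, hm⟩ : modularFunctionFieldFullC k M) : LaurentSeries k) =
      Units.u1inv k ℓ := by
  rw [coe_redInf, ← UnitCert.red_u1inv A π ℓ (UnitCert.u1inv_mem A π ℓ)]
  congr 1
  exact Subtype.ext (coe_inv_f hf)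

theorem redInf_inv_f_ne_zero (h : BadSetup A π M ℓ) (hf : (f : LaurentSeries L) = Units.u1 L ℓ)
    (hm : f⁻¹ ∈ OInf h) : redInf h ⟨f⁻¹, hm⟩ ≠ 0 := by
  intro h0
  have h1 := coe_redInf_inv_f h hf hm
  rw [h0] at h1
  exact UnitCert.u1inv_ne_zero ℓ k h1.symm

/-- `g = ℓ¹² · f⁻¹ ∈ O_∞`. -/
theorem g_mem_OInf (h : BadSetup A π M ℓ) (hf : (f : LaurentSeries L) = Units.u1 L ℓ) :
    ((ℓ : ℕ) : laurentBaseChange L (modularFunctionFieldFull (M * ℓ))) ^ 12 * f⁻¹ ∈ OInf h := by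
  rw [mem_OInf_iff, coe_g hf]
  exact C_mul_mem A π ℓ (UnitCert.u1inv_mem A π ℓ)

/-- `red_∞ g = 0`. -/
theorem redInf_g (h : BadSetup A π M ℓ) (hf : (f : LaurentSeries L) = Units.u1 L ℓ)
    (hm : ((ℓ : ℕ) : laurentBaseChange L (modularFunctionFieldFull (M * ℓ))) ^ 12 * f⁻¹ ∈
      OInf h) : redInf h ⟨_, hm⟩ = 0 := by
  have h1 := red_C_mul A π ℓ h.hℓk (UnitCert.u1inv_mem A π ℓ)
    (C_mul_mem A π ℓ (UnitCert.u1inv_mem A π ℓ))
  apply Subtype.ext
  rw [coe_redInf, ZeroMemClass.coe_zero, ← h1]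
  congr 1
  exact Subtype.ext (coe_g hf)

/-! #### (F3) the column at `0` -/

/-- `f ∈ O_0`. -/
theorem f_mem_OZero (h : BadSetup A π M ℓ) (hW : IsAL M ℓ W)
    (hf : (f : LaurentSeries L) = Units.u1 L ℓ) : f ∈ OZero h W := by
  rw [mem_OZero_iff, W_f h.hℓ hW hf]
  exact g_mem_OInf h hf

/-- `red_0 f = 0`. -/
theorem redZero_f (h : BadSetup A π M ℓ) (hW : IsAL M ℓ W)
    (hf : (f : LaurentSeries L) = Units.u1 L ℓ) (hm : f ∈ OZero h W) :
    redZero h W ⟨f, hm⟩ = 0 := by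
  rw [redZero_mk, redInf_congr h (W_f h.hℓ hW hf) hm (g_mem_OInf h hf)]
  exact redInf_g h hf _

/-- `g = ℓ¹² · f⁻¹ ∈ O_0`. -/
theorem g_mem_OZero (h : BadSetup A π M ℓ) (hW : IsAL M ℓ W)
    (hf : (f : LaurentSeries L) = Units.u1 L ℓ) :
    ((ℓ : ℕ) : laurentBaseChange L (modularFunctionFieldFull (M * ℓ))) ^ 12 * f⁻¹ ∈
      OZero h W := by
  rw [mem_OZero_iff, W_g h.hℓ h.not_dvd hW hf]
  exact f_mem_OInf h hf

/-- `red_0 g = red_∞ f`. -/
theorem redZero_g (h : BadSetup A π M ℓ) (hW : IsAL M ℓ W)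
    (hf : (f : LaurentSeries L) = Units.u1 L ℓ)
    (hm : ((ℓ : ℕ) : laurentBaseChange L (modularFunctionFieldFull (M * ℓ))) ^ 12 * f⁻¹ ∈
      OZero h W) (hm' : f ∈ OInf h) :
    redZero h W ⟨_, hm⟩ = redInf h ⟨f, hm'⟩ := by
  rw [redZero_mk]
  exact redInf_congr h (W_g h.hℓ h.not_dvd hW hf) hm hm'

/-- `red_0 g = u1 k ℓ = Δ̄(q)/Δ̄(q^ℓ)`. -/
theorem coe_redZero_g (h : BadSetup A π M ℓ) (hW : IsAL M ℓ W)
    (hf : (f : LaurentSeries L) = Units.u1 L ℓ)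
    (hm : ((ℓ : ℕ) : laurentBaseChange L (modularFunctionFieldFull (M * ℓ))) ^ 12 * f⁻¹ ∈
      OZero h W) :
    ((redZero h W ⟨_, hm⟩ : modularFunctionFieldFullC k M) : LaurentSeries k) =
      Units.u1 k ℓ := by
  rw [redZero_g h hW hf hm (f_mem_OInf h hf)]
  exact coe_redInf_f h hf _

theorem redZero_g_ne_zero (h : BadSetup A π M ℓ) (hW : IsAL M ℓ W)
    (hf : (f : LaurentSeries L) = Units.u1 L ℓ)
    (hm : ((ℓ : ℕ) : laurentBaseChange L (modularFunctionFieldFull (M * ℓ))) ^ 12 * f⁻¹ ∈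
      OZero h W) : redZero h W ⟨_, hm⟩ ≠ 0 := by
  rw [redZero_g h hW hf hm (f_mem_OInf h hf)]
  exact redInf_f_ne_zero h hf _

/-- `f / ℓ¹² ∈ O_0` : `v_0 f ≥ 12 · v_0 ℓ`. -/
theorem f_div_mem_OZero (h : BadSetup A π M ℓ) (hW : IsAL M ℓ W)
    (hf : (f : LaurentSeries L) = Units.u1 L ℓ) :
    f / ((ℓ : ℕ) : laurentBaseChange L (modularFunctionFieldFull (M * ℓ))) ^ 12 ∈
      OZero h W := by
  rw [mem_OZero_iff, W_f_div h.hℓ hW hf]
  exact inv_f_mem_OInf h hf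

/-- `red_0 (f / ℓ¹²) = red_∞ f⁻¹` (`≠ 0`: so `v_0 f = 12 · v_0 ℓ` exactly). -/
theorem redZero_f_div (h : BadSetup A π M ℓ) (hW : IsAL M ℓ W)
    (hf : (f : LaurentSeries L) = Units.u1 L ℓ)
    (hm : f / ((ℓ : ℕ) : laurentBaseChange L (modularFunctionFieldFull (M * ℓ))) ^ 12 ∈
      OZero h W) (hm' : f⁻¹ ∈ OInf h) :
    redZero h W ⟨_, hm⟩ = redInf h ⟨f⁻¹, hm'⟩ := by
  rw [redZero_mk]
  exact redInf_congr h (W_f_div h.hℓ hW hf) hm hm'

theorem redZero_f_div_ne_zero (h : BadSetup A π M ℓ) (hW : IsAL M ℓ W)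
    (hf : (f : LaurentSeries L) = Units.u1 L ℓ)
    (hm : f / ((ℓ : ℕ) : laurentBaseChange L (modularFunctionFieldFull (M * ℓ))) ^ 12 ∈
      OZero h W) : redZero h W ⟨_, hm⟩ ≠ 0 := by
  rw [redZero_f_div h hW hf hm (inv_f_mem_OInf h hf)]
  exact redInf_inv_f_ne_zero h hf _

/-- The inverse `(f / ℓ¹²)⁻¹ = ℓ¹² · f⁻¹` also lies in `O_0`. -/
theorem inv_f_div_mem_OZero (h : BadSetup A π M ℓ) (hW : IsAL M ℓ W)
    (hf : (f : LaurentSeries L) = Units.u1 L ℓ) :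
    (f / ((ℓ : ℕ) : laurentBaseChange L (modularFunctionFieldFull (M * ℓ))) ^ 12)⁻¹ ∈
      OZero h W := by
  have e : (f / ((ℓ : ℕ) : laurentBaseChange L (modularFunctionFieldFull (M * ℓ))) ^ 12)⁻¹ =
      ((ℓ : ℕ) : laurentBaseChange L (modularFunctionFieldFull (M * ℓ))) ^ 12 * f⁻¹ := by
    rw [inv_div, div_eq_mul_inv]
  rw [e]
  exact g_mem_OZero h hW hf

/-! #### `IsUnif` forms (discrete case) -/

/-- `ord_∞ f = 0` for any uniformiser of `O_∞`. -/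
theorem ord_inf_f (h : BadSetup A π M ℓ) (hf : (f : LaurentSeries L) = Units.u1 L ℓ)
    {ϖ : laurentBaseChange L (modularFunctionFieldFull (M * ℓ))} (hO : IsUnif (OInf h) ϖ) :
    hO.ord f = 0 :=
  hO.ord_unit (f_mem_OInf h hf) (inv_f_mem_OInf h hf) (f_ne_zero hf)

/-- `ord_0 f = 12 · ord_0 ℓ` for any uniformiser of `O_0`. -/
theorem ord_zero_f (h : BadSetup A π M ℓ) (hW : IsAL M ℓ W)
    (hf : (f : LaurentSeries L) = Units.u1 L ℓ)
    {ϖ : laurentBaseChange L (modularFunctionFieldFull (M * ℓ))} (hO : IsUnif (OZero h W) ϖ) :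
    hO.ord f =
      12 * hO.ord ((ℓ : ℕ) : laurentBaseChange L (modularFunctionFieldFull (M * ℓ))) := by
  have hℓ0 := natCast_pow_ne_zero (L := L) (M := M) h.hℓ
  have hd0 : f / ((ℓ : ℕ) : laurentBaseChange L (modularFunctionFieldFull (M * ℓ))) ^ 12 ≠ 0 :=
    div_ne_zero (f_ne_zero hf) hℓ0
  have h1 := hO.ord_unit (f_div_mem_OZero h hW hf) (inv_f_div_mem_OZero h hW hf) hd0
  have h2 := hO.ord_mul hd0 hℓ0
  rw [div_mul_cancel₀ _ hℓ0, h1, zero_add, hO.ord_pow] at h2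
  rw [h2]
  norm_num

/-- `ord_0 f = 12` when `ℓ` itself is a uniformiser of `O_0` (unramified base). -/
theorem ord_zero_f_of_unif (h : BadSetup A π M ℓ) (hW : IsAL M ℓ W)
    (hf : (f : LaurentSeries L) = Units.u1 L ℓ)
    (hO : IsUnif (OZero h W)
      ((ℓ : ℕ) : laurentBaseChange L (modularFunctionFieldFull (M * ℓ)))) :
    hO.ord f = 12 := by
  rw [ord_zero_f h hW hf hO, hO.ord_self, mul_one]

end Cols

/-! ### (F4) integrality -/

section Integral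

variable {L : Type*} [Field L] [Algebra ℚ L] {M ℓ : ℕ} [NeZero M] [NeZero ℓ]
  {R₁ : Type*} [CommRing R₁]
  [Algebra R₁ ↥(laurentBaseChange L (modularFunctionFieldFull (M * ℓ)))]
  {f : laurentBaseChange L (modularFunctionFieldFull (M * ℓ))}

/-- **(F4)** Over any ring `R₁` (acting on `F`) over which `α(J) = J(q)` is integral, `f` and
`ℓ¹² · f⁻¹` are integral: `f` has neither zeros nor poles off the cusps. -/
theorem isIntegral_f_g (hℓ : ℓ.Prime)
    (hJ : IsIntegral R₁ (heckeAlphaBar L M ℓ (jLevel L M)))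
    (hf : (f : LaurentSeries L) = Units.u1 L ℓ) :
    IsIntegral R₁ f ∧
      IsIntegral R₁
        (((ℓ : ℕ) : laurentBaseChange L (modularFunctionFieldFull (M * ℓ))) ^ 12 * f⁻¹) := by
  let ι : ↥(laurentBaseChange L (modularFunctionFieldFull (M * ℓ))) →+* LaurentSeries L :=
    ((laurentBaseChange L (modularFunctionFieldFull (M * ℓ))).val :
      ↥(laurentBaseChange L (modularFunctionFieldFull (M * ℓ))) →+* LaurentSeries L)
  let φ : R₁ →+* LaurentSeries L :=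
    ι.comp (algebraMap R₁ ↥(laurentBaseChange L (modularFunctionFieldFull (M * ℓ))))
  letI : Algebra R₁ (LaurentSeries L) := φ.toAlgebra
  have hJ' : IsIntegral R₁ (jqModC L) := by
    obtain ⟨P, hP, hP0⟩ := hJ
    refine ⟨P, hP, ?_⟩
    have h2 := Polynomial.hom_eval₂ P
      (algebraMap R₁ ↥(laurentBaseChange L (modularFunctionFieldFull (M * ℓ)))) ι
      (heckeAlphaBar L M ℓ (jLevel L M))
    rw [hP0, map_zero] at h2
    have h3 : ι (heckeAlphaBar L M ℓ (jLevel L M)) = jqModC L :=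
      coe_alpha_j (L := L) (M := M) (ℓ := ℓ)
    rw [h3] at h2
    exact h2.symm
  have back : ∀ y : ↥(laurentBaseChange L (modularFunctionFieldFull (M * ℓ))),
      IsIntegral R₁ (ι y) → IsIntegral R₁ y := by
    rintro y ⟨P, hP, hP0⟩
    refine ⟨P, hP, Subtype.ext ?_⟩
    have h2 := Polynomial.hom_eval₂ P
      (algebraMap R₁ ↥(laurentBaseChange L (modularFunctionFieldFull (M * ℓ)))) ι y
    exact h2.trans hP0
  obtain ⟨-, -, h1, h2, -, -⟩ := Units.isIntegral_units L hℓ hJ'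
  refine ⟨back _ ?_, back _ ?_⟩
  · have e : ι f = Units.u1 L ℓ := hf
    rw [e]
    exact h1
  · have e : ι (((ℓ : ℕ) : laurentBaseChange L (modularFunctionFieldFull (M * ℓ))) ^ 12 * f⁻¹) =
        HahnSeries.C ((ℓ : L) ^ 12) * Units.u1inv L ℓ := coe_g hf
    rw [e]
    exact h2

end Integral

end Fermat.Agent.TR.Unit.FDelta

end
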