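/-
TR / Unit : the modular unit `f_Δ = Δ(q)/Δ(q^ℓ)` of level `M·ℓ` is fixed by the arithmetic Galois
action (its `q`-expansion has integer coefficients), and so is `g = ℓ¹² · f⁻¹`.

`F = L·F_{Mℓ}`; `f : F` ANY element with `q`-expansion `Units.u1 L ℓ`.

* `smul_f hf σ : arithmeticGalois (modularFunctionFieldFull (M * ℓ)) σ • f = f`;
* `smul_g hf σ : arithmeticGalois … σ • (ℓ¹² · f⁻¹) = ℓ¹² · f⁻¹`;
* `smul_inv_f`, `smul_f_div` : the same for `f⁻¹` and `f / ℓ¹²`.
-/
import Mathlib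
import Fermat.Agent.TR.Unit.FDelta

set_option autoImplicit false

noncomputable section

namespace Fermat.Agent.TR.Unit.FDelta

open HahnSeries ModularCurve AlgebraicCurve Fermat.Agent.Lib.Red Fermat.Agent.S28
open Fermat.Agent.ESJ.Cong.LevelGen Fermat.Agent.BAD.TwoVal Fermat.Agent.S28.ModEq
open Fermat.Agent.CAR.V3

section Gal

variable {L : Type*} [Field L] [Algebra ℚ L] {M ℓ : ℕ} [NeZero M] [NeZero ℓ]
  {f : laurentBaseChange L (modularFunctionFieldFull (M * ℓ))}

omit [NeZero M] in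
/-- **`f_Δ` is fixed by the arithmetic Galois action.** -/
theorem smul_f (hf : (f : LaurentSeries L) = Units.u1 L ℓ) (σ : L ≃ₐ[ℚ] L) :
    arithmeticGalois (modularFunctionFieldFull (M * ℓ)) σ • f = f := by
  apply Subtype.ext
  rw [coe_arithmeticGalois_smul, hf]
  exact Units.coeffMap_u1 ℓ (σ : L →+* L)

omit [NeZero M] in
/-- `f⁻¹` is fixed by the arithmetic Galois action. -/
theorem smul_inv_f (hf : (f : LaurentSeries L) = Units.u1 L ℓ) (σ : L ≃ₐ[ℚ] L) :
    arithmeticGalois (modularFunctionFieldFull (M * ℓ)) σ • f⁻¹ = f⁻¹ := by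
  apply Subtype.ext
  rw [coe_arithmeticGalois_smul, coe_inv_f hf]
  exact Units.coeffMap_u1inv ℓ (σ : L →+* L)

omit [NeZero M] in
/-- **`g = ℓ¹² · f⁻¹` is fixed by the arithmetic Galois action.** -/
theorem smul_g (hf : (f : LaurentSeries L) = Units.u1 L ℓ) (σ : L ≃ₐ[ℚ] L) :
    arithmeticGalois (modularFunctionFieldFull (M * ℓ)) σ •
        (((ℓ : ℕ) : laurentBaseChange L (modularFunctionFieldFull (M * ℓ))) ^ 12 * f⁻¹) =
      ((ℓ : ℕ) : laurentBaseChange L (modularFunctionFieldFull (M * ℓ))) ^ 12 * f⁻¹ := by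
  apply Subtype.ext
  rw [coe_arithmeticGalois_smul, coe_g hf, ← Units.yInf_eq]
  exact coeffMap_yInf (σ : L →+* L) ℓ

omit [NeZero M] in
/-- `f / ℓ¹²` is fixed by the arithmetic Galois action. -/
theorem smul_f_div (hf : (f : LaurentSeries L) = Units.u1 L ℓ) (σ : L ≃ₐ[ℚ] L) :
    arithmeticGalois (modularFunctionFieldFull (M * ℓ)) σ •
        (f / ((ℓ : ℕ) : laurentBaseChange L (modularFunctionFieldFull (M * ℓ))) ^ 12) =
      f / ((ℓ : ℕ) : laurentBaseChange L (modularFunctionFieldFull (M * ℓ))) ^ 12 := by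
  apply Subtype.ext
  rw [coe_arithmeticGalois_smul, coe_f_div hf, map_div₀, Units.coeffMap_u1]
  congr 1
  have e : (HahnSeries.C ((ℓ : L) ^ 12) : LaurentSeries L) =
      coeffMap (Int.castRingHom L) (HahnSeries.C (((ℓ : ℕ) : ℤ) ^ 12)) := by
    rw [coeffMap_C]
    simp
  rw [e, coeffMap_coeffMap]
  exact coeffMap_congr (RingHom.ext fun n => by simp) _

end Gal

end Fermat.Agent.TR.Unit.FDelta

end
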