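/-
TR / Unit : (UNIT-RED) — functions integral over `A[J]` have reductions regular off the cusps,
on both components of the bad fibre.

* abstract engine: `O` a valuation subring of `F` with a ring map `red : O →+* κ`, `S ⊆ F`,
  `T ⊆ κ` subrings with `red(S) ⊆ T`; an element integral over `S` lies in `O` and its residue
  is integral over `T` (`exists_isIntegral_red`); at a place `P` of `κ` at which `T` is regular,
  its residue has `ord ≥ 0` (`exists_ord_red_nonneg`), and `ord = 0` if the inverse is integral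
  too (`exists_ord_red_eq_zero`);
* BAD's two valuations at level `M·ℓ` (`h : BadSetup A π M ℓ`, `hW : IsAL M ℓ W`):
  `jRing A M ℓ = A[J(q), J(q^ℓ)] ⊆ F` (`W`-stable), `jRingC k M Jb = k[J̄] ⊆ κ`;
  `ord_redInf_nonneg`, `ord_redInf_eq_zero`, `ord_redZero_nonneg`, `ord_redZero_eq_zero` at every
  place `P` of `κ` with `0 ≤ P.ord J̄` (the non-cuspidal places).
-/
import Mathlib
import Fermat.Agent.TR.Unit.FDelta
import Fermat.Agent.S24.PlaceBasic

set_option autoImplicit false

noncomputable section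

namespace Fermat.Agent.TR.Unit.IntRed

open HahnSeries ModularCurve AlgebraicCurve Fermat.Agent.Lib.Red Fermat.Agent.S28
open Fermat.Agent.ESJ.Cong.LevelGen Fermat.Agent.BAD.TwoVal Fermat.Agent.S28.ModEq
open Fermat.Agent.CAR.V3

/-! ### The abstract engine -/

section Abs

variable {F : Type*} [Field F]

/-- An element integral over a subring contained in a valuation subring `O` lies in `O`. -/
theorem mem_of_isIntegral (O : ValuationSubring F) (S : Subring F) (hS : ∀ s ∈ S, s ∈ O)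
    {g : F} (hg : IsIntegral S g) : g ∈ O := by
  obtain ⟨P, hP, hP0⟩ := hg
  let ψ : S →+* O := (S.subtype).codRestrict O (fun s => hS s s.2)
  have hint : IsIntegral O g := by
    refine ⟨P.map ψ, hP.map ψ, ?_⟩
    rw [Polynomial.eval₂_map]
    exact hP0
  obtain ⟨y, hy⟩ := (IsIntegrallyClosed.isIntegral_iff (R := O) (K := F)).mp hint
  rw [← hy]
  exact y.2

variable {κ : Type*} [Field κ]

/-- **Residues of integral elements are integral.** -/
theorem exists_isIntegral_red (O : ValuationSubring F) (red : O →+* κ) (S : Subring F)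
    (T : Subring κ) (hST : ∀ s ∈ S, ∃ hm : s ∈ O, red ⟨s, hm⟩ ∈ T) {g : F}
    (hg : IsIntegral S g) : ∃ hm : g ∈ O, IsIntegral T (red ⟨g, hm⟩) := by
  have hS : ∀ s ∈ S, s ∈ O := fun s hs => (hST s hs).1
  have hgO : g ∈ O := mem_of_isIntegral O S hS hg
  refine ⟨hgO, ?_⟩
  obtain ⟨P, hP, hP0⟩ := hg
  let ψ₀ : S →+* O := (S.subtype).codRestrict O (fun s => hS s s.2)
  have hψ : ∀ s : S, red (ψ₀ s) ∈ T := fun s => (hST s s.2).2
  let ψ : S →+* T := (red.comp ψ₀).codRestrict T hψ
  refine ⟨P.map ψ, hP.map ψ, ?_⟩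
  rw [Polynomial.eval₂_map]
  have e : (algebraMap T κ).comp ψ = red.comp ψ₀ := RingHom.ext fun x => rfl
  rw [e, ← Polynomial.hom_eval₂]
  have h0 : Polynomial.eval₂ ψ₀ (⟨g, hgO⟩ : O) P = 0 := by
    apply Subtype.ext
    have h1 := Polynomial.hom_eval₂ P ψ₀ O.subtype ⟨g, hgO⟩
    exact h1.trans hP0
  rw [h0, map_zero]

variable {K : Type*} [Field K] [Algebra K κ]

/-- An element of `κ` integral over a subring which is regular at the place `P` is regular
at `P`. -/
theorem ord_nonneg_of_isIntegral (P : Place K κ) (T : Subring κ) (hT : ∀ t ∈ T, 0 ≤ P.ord t)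
    {y : κ} (hy : IsIntegral T y) : 0 ≤ P.ord y :=
  Fermat.Agent.S24.ord_nonneg_of_mem P
    (mem_of_isIntegral P.toValuationSubring T
      (fun t ht => Fermat.Agent.S24.mem_of_ord_nonneg P (hT t ht)) hy)

/-- The residue of an integral element is regular at every place at which `T` is. -/
theorem exists_ord_red_nonneg (O : ValuationSubring F) (red : O →+* κ) (S : Subring F)
    (T : Subring κ) (hST : ∀ s ∈ S, ∃ hm : s ∈ O, red ⟨s, hm⟩ ∈ T) (P : Place K κ)
    (hT : ∀ t ∈ T, 0 ≤ P.ord t) {g : F} (hg : IsIntegral S g) :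
    ∃ hm : g ∈ O, 0 ≤ P.ord (red ⟨g, hm⟩) := by
  obtain ⟨hm, hi⟩ := exists_isIntegral_red O red S T hST hg
  exact ⟨hm, ord_nonneg_of_isIntegral P T hT hi⟩

/-- **The residue of an integral unit has neither zero nor pole** at every place at which `T`
is regular. -/
theorem exists_ord_red_eq_zero (O : ValuationSubring F) (red : O →+* κ) (S : Subring F)
    (T : Subring κ) (hST : ∀ s ∈ S, ∃ hm : s ∈ O, red ⟨s, hm⟩ ∈ T) (P : Place K κ)
    (hT : ∀ t ∈ T, 0 ≤ P.ord t) {g : F} (hg0 : g ≠ 0) (hg : IsIntegral S g)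
    (hg' : IsIntegral S g⁻¹) : ∃ hm : g ∈ O, P.ord (red ⟨g, hm⟩) = 0 := by
  obtain ⟨hm, h1⟩ := exists_ord_red_nonneg O red S T hST P hT hg
  obtain ⟨hm', h2⟩ := exists_ord_red_nonneg O red S T hST P hT hg'
  refine ⟨hm, ?_⟩
  have e : (⟨g, hm⟩ : O) * ⟨g⁻¹, hm'⟩ = 1 := Subtype.ext (mul_inv_cancel₀ hg0)
  have e2 : red ⟨g, hm⟩ * red ⟨g⁻¹, hm'⟩ = 1 := by rw [← map_mul, e, map_one]
  have ha : red ⟨g, hm⟩ ≠ 0 := fun h0 => by rw [h0, zero_mul] at e2; exact zero_ne_one e2
  have hb : red ⟨g⁻¹, hm'⟩ ≠ 0 := fun h0 => by rw [h0, mul_zero] at e2; exact zero_ne_one e2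
  have h3 := P.ord_mul ha hb
  rw [e2, Place.ord_one] at h3
  omega

end Abs

/-! ### BAD's two valuations -/

section Bad

variable {L : Type*} [Field L] [Algebra ℚ L] {A : ValuationSubring L} {k : Type} [Field k]
  {π : A →+* k} {M ℓ : ℕ} [NeZero M] [NeZero ℓ]
  {W : laurentBaseChange L (modularFunctionFieldFull (M * ℓ)) ≃ₐ[L]
    laurentBaseChange L (modularFunctionFieldFull (M * ℓ))}

variable (A M ℓ) in
/-- The ring `A[J(q), J(q^ℓ)]` inside `F = L·F_{Mℓ}`. -/
def jRing : Subring ↥(laurentBaseChange L (modularFunctionFieldFull (M * ℓ))) :=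
  Subring.closure
    (Set.range (fun a : A =>
        algebraMap L ↥(laurentBaseChange L (modularFunctionFieldFull (M * ℓ))) (a : L)) ∪
      {heckeAlphaBar L M ℓ (jLevel L M), heckeBetaBar L M ℓ (jLevel L M)})

variable (k M) in
/-- The ring `k[J̄]` inside the mod-`ℓ` function field of level `M`. -/
def jRingC (Jb : modularFunctionFieldFullC k M) : Subring ↥(modularFunctionFieldFullC k M) :=
  Subring.closure (Set.range (algebraMap k ↥(modularFunctionFieldFullC k M)) ∪ {Jb})

theorem algebraMap_mem_jRing (a : A) :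
    algebraMap L ↥(laurentBaseChange L (modularFunctionFieldFull (M * ℓ))) (a : L) ∈
      jRing A M ℓ :=
  Subring.subset_closure (Or.inl ⟨a, rfl⟩)

theorem alpha_j_mem_jRing : heckeAlphaBar L M ℓ (jLevel L M) ∈ jRing A M ℓ :=
  Subring.subset_closure (Or.inr (Or.inl rfl))

theorem beta_j_mem_jRing : heckeBetaBar L M ℓ (jLevel L M) ∈ jRing A M ℓ :=
  Subring.subset_closure (Or.inr (Or.inr rfl))

omit [NeZero M] in
theorem Jb_mem_jRingC {Jb : modularFunctionFieldFullC k M} : Jb ∈ jRingC k M Jb :=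
  Subring.subset_closure (Or.inr rfl)

omit [NeZero M] in
theorem algebraMap_mem_jRingC {Jb : modularFunctionFieldFullC k M} (c : k) :
    algebraMap k ↥(modularFunctionFieldFullC k M) c ∈ jRingC k M Jb :=
  Subring.subset_closure (Or.inl ⟨c, rfl⟩)

/-- `A[J(q), J(q^ℓ)] ⊆ O_∞`, with residues in `k[J̄]`. -/
theorem exists_redInf_mem (h : BadSetup A π M ℓ) {Jb : modularFunctionFieldFullC k M}
    (hJb : (Jb : LaurentSeries k) = jqModC k)
    {s : laurentBaseChange L (modularFunctionFieldFull (M * ℓ))} (hs : s ∈ jRing A M ℓ) :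
    ∃ hm : s ∈ OInf h, redInf h ⟨s, hm⟩ ∈ jRingC k M Jb := by
  unfold jRing at hs
  induction hs using Subring.closure_induction with
  | mem x hx =>
    rcases hx with ⟨a, rfl⟩ | hx
    · have ha : algebraMap L ↥(laurentBaseChange L (modularFunctionFieldFull (M * ℓ))) (a : L) ∈
          OInf h := (algebraMap_mem_OInf_iff h (a : L)).mpr a.2
      refine ⟨ha, ?_⟩
      rw [redInf_algebraMap h a ha]
      exact algebraMap_mem_jRingC (π a)
    · rcases hx with rfl | hx
      · have hm : heckeAlphaBar L M ℓ (jLevel L M) ∈ OInf h := by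
          rw [mem_OInf_iff, FDelta.coe_alpha_j (L := L) (M := M) (ℓ := ℓ)]
          exact UnitCert.jq_mem A π
        refine ⟨hm, ?_⟩
        have e : redInf h ⟨_, hm⟩ = Jb := by
          apply Subtype.ext
          rw [coe_redInf, hJb, ← UnitCert.red_jq A π (UnitCert.jq_mem A π)]
          congr 1
          exact Subtype.ext (FDelta.coe_alpha_j (L := L) (M := M) (ℓ := ℓ))
        rw [e]
        exact Jb_mem_jRingC
      · rw [Set.mem_singleton_iff] at hx
        subst hx
        have hm : heckeBetaBar L M ℓ (jLevel L M) ∈ OInf h := by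
          rw [mem_OInf_iff, FDelta.coe_beta_j (L := L) (M := M) (ℓ := ℓ)]
          exact UnitCert.jqN_mem A π ℓ
        refine ⟨hm, ?_⟩
        have e : redInf h ⟨_, hm⟩ = Jb ^ ℓ := by
          have : Fact ℓ.Prime := ⟨h.hℓ⟩
          have : CharP k ℓ := h.charP
          apply Subtype.ext
          rw [coe_redInf, SubmonoidClass.coe_pow, hJb, ← UnitCert.qExpand_jqModC_charP k ℓ,
            ← UnitCert.red_jqN A π ℓ (UnitCert.jqN_mem A π ℓ)]
          congr 1
          exact Subtype.ext (FDelta.coe_beta_j (L := L) (M := M) (ℓ := ℓ))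
        rw [e]
        exact pow_mem Jb_mem_jRingC ℓ
  | zero =>
    refine ⟨zero_mem _, ?_⟩
    have e : (⟨0, zero_mem _⟩ : OInf h) = 0 := rfl
    rw [e, map_zero]
    exact zero_mem _
  | one =>
    refine ⟨one_mem _, ?_⟩
    have e : (⟨1, one_mem _⟩ : OInf h) = 1 := rfl
    rw [e, map_one]
    exact one_mem _
  | add x y hx hy ihx ihy =>
    obtain ⟨hmx, hx'⟩ := ihx
    obtain ⟨hmy, hy'⟩ := ihy
    refine ⟨add_mem hmx hmy, ?_⟩
    have e : (⟨x + y, add_mem hmx hmy⟩ : OInf h) = ⟨x, hmx⟩ + ⟨y, hmy⟩ := rfl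
    rw [e, map_add]
    exact add_mem hx' hy'
  | neg x hx ih =>
    obtain ⟨hmx, hx'⟩ := ih
    refine ⟨neg_mem hmx, ?_⟩
    have e : (⟨-x, neg_mem hmx⟩ : OInf h) = -⟨x, hmx⟩ := rfl
    rw [e, map_neg]
    exact neg_mem hx'
  | mul x y hx hy ihx ihy =>
    obtain ⟨hmx, hx'⟩ := ihx
    obtain ⟨hmy, hy'⟩ := ihy
    refine ⟨mul_mem hmx hmy, ?_⟩
    have e : (⟨x * y, mul_mem hmx hmy⟩ : OInf h) = ⟨x, hmx⟩ * ⟨y, hmy⟩ := rfl
    rw [e, map_mul]
    exact mul_mem hx' hy'

/-- `A[J(q), J(q^ℓ)]` is stable under the Atkin–Lehner involution. -/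
theorem W_mem_jRing (hW : IsAL M ℓ W)
    {s : laurentBaseChange L (modularFunctionFieldFull (M * ℓ))} (hs : s ∈ jRing A M ℓ) :
    W s ∈ jRing A M ℓ := by
  unfold jRing at hs
  induction hs using Subring.closure_induction with
  | mem x hx =>
    rcases hx with ⟨a, rfl⟩ | hx
    · rw [W.commutes]
      exact algebraMap_mem_jRing a
    · rcases hx with rfl | hx
      · rw [hW.alpha]
        exact beta_j_mem_jRing
      · rw [Set.mem_singleton_iff] at hx
        subst hx
        rw [hW.beta]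
        exact alpha_j_mem_jRing
  | zero => rw [map_zero]; exact zero_mem _
  | one => rw [map_one]; exact one_mem _
  | add x y hx hy ihx ihy => rw [map_add]; exact add_mem ihx ihy
  | neg x hx ih => rw [map_neg]; exact neg_mem ih
  | mul x y hx hy ihx ihy => rw [map_mul]; exact mul_mem ihx ihy

/-- Integrality over `A[J(q), J(q^ℓ)]` is preserved by the Atkin–Lehner involution. -/
theorem isIntegral_W (hW : IsAL M ℓ W)
    {g : laurentBaseChange L (modularFunctionFieldFull (M * ℓ))}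
    (hg : IsIntegral (jRing A M ℓ) g) : IsIntegral (jRing A M ℓ) (W g) := by
  obtain ⟨P, hP, hP0⟩ := hg
  let ψ : jRing A M ℓ →+* jRing A M ℓ :=
    ((W.toRingEquiv.toRingHom).comp (jRing A M ℓ).subtype).codRestrict (jRing A M ℓ)
      (fun s => W_mem_jRing hW s.2)
  refine ⟨P.map ψ, hP.map ψ, ?_⟩
  rw [Polynomial.eval₂_map]
  have e : (algebraMap (jRing A M ℓ) ↥(laurentBaseChange L (modularFunctionFieldFull (M * ℓ)))).comp
      ψ = (W.toRingEquiv.toRingHom).comp
        (algebraMap (jRing A M ℓ) ↥(laurentBaseChange L (modularFunctionFieldFull (M * ℓ)))) :=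
    RingHom.ext fun x => rfl
  have e2 : W g = W.toRingEquiv.toRingHom g := rfl
  rw [e, e2, ← Polynomial.hom_eval₂, hP0, map_zero]

omit [NeZero M] in
/-- `k[J̄]` is regular at every place at which `J̄` is. -/
theorem ord_nonneg_of_mem_jRingC {Jb : modularFunctionFieldFullC k M}
    (P : Place k ↥(modularFunctionFieldFullC k M)) (hP : 0 ≤ P.ord Jb)
    {t : modularFunctionFieldFullC k M} (ht : t ∈ jRingC k M Jb) : 0 ≤ P.ord t := by
  have hle : jRingC k M Jb ≤ P.toValuationSubring.toSubring := by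
    unfold jRingC
    rw [Subring.closure_le]
    rintro x (⟨c, rfl⟩ | hx)
    · exact P.algebraMap_mem' c
    · rw [Set.mem_singleton_iff] at hx
      rw [hx]
      exact Fermat.Agent.S24.mem_of_ord_nonneg P hP
  exact Fermat.Agent.S24.ord_nonneg_of_mem P (hle ht)

variable {Jb : modularFunctionFieldFullC k M}
  {g : laurentBaseChange L (modularFunctionFieldFull (M * ℓ))}

/-- **Column `∞`, regularity**: the residue of a function integral over `A[J(q), J(q^ℓ)]` is
regular at every non-cuspidal place. -/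
theorem ord_redInf_nonneg (h : BadSetup A π M ℓ) (hJb : (Jb : LaurentSeries k) = jqModC k)
    (P : Place k ↥(modularFunctionFieldFullC k M)) (hP : 0 ≤ P.ord Jb)
    (hg : IsIntegral (jRing A M ℓ) g) : ∃ hm : g ∈ OInf h, 0 ≤ P.ord (redInf h ⟨g, hm⟩) :=
  exists_ord_red_nonneg (OInf h) (redInf h) (jRing A M ℓ) (jRingC k M Jb)
    (fun _ hs => exists_redInf_mem h hJb hs) P (fun _ ht => ord_nonneg_of_mem_jRingC P hP ht) hg

/-- **Column `∞`, units**: if `g` and `g⁻¹` are integral over `A[J(q), J(q^ℓ)]`, then `red_∞ g`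
has neither zero nor pole at every non-cuspidal place. -/
theorem ord_redInf_eq_zero (h : BadSetup A π M ℓ) (hJb : (Jb : LaurentSeries k) = jqModC k)
    (P : Place k ↥(modularFunctionFieldFullC k M)) (hP : 0 ≤ P.ord Jb) (hg0 : g ≠ 0)
    (hg : IsIntegral (jRing A M ℓ) g) (hg' : IsIntegral (jRing A M ℓ) g⁻¹) :
    ∃ hm : g ∈ OInf h, P.ord (redInf h ⟨g, hm⟩) = 0 :=
  exists_ord_red_eq_zero (OInf h) (redInf h) (jRing A M ℓ) (jRingC k M Jb)
    (fun _ hs => exists_redInf_mem h hJb hs) P (fun _ ht => ord_nonneg_of_mem_jRingC P hP ht)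
    hg0 hg hg'

/-- **Column `0`, regularity.** -/
theorem ord_redZero_nonneg (h : BadSetup A π M ℓ) (hW : IsAL M ℓ W)
    (hJb : (Jb : LaurentSeries k) = jqModC k)
    (P : Place k ↥(modularFunctionFieldFullC k M)) (hP : 0 ≤ P.ord Jb)
    (hg : IsIntegral (jRing A M ℓ) g) :
    ∃ hm : g ∈ OZero h W, 0 ≤ P.ord (redZero h W ⟨g, hm⟩) := by
  obtain ⟨hm, h1⟩ := ord_redInf_nonneg h hJb P hP (isIntegral_W hW hg)
  exact ⟨(mem_OZero_iff h g).mpr hm, h1⟩

/-- **Column `0`, units.** -/
theorem ord_redZero_eq_zero (h : BadSetup A π M ℓ) (hW : IsAL M ℓ W)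
    (hJb : (Jb : LaurentSeries k) = jqModC k)
    (P : Place k ↥(modularFunctionFieldFullC k M)) (hP : 0 ≤ P.ord Jb) (hg0 : g ≠ 0)
    (hg : IsIntegral (jRing A M ℓ) g) (hg' : IsIntegral (jRing A M ℓ) g⁻¹) :
    ∃ hm : g ∈ OZero h W, P.ord (redZero h W ⟨g, hm⟩) = 0 := by
  have hWg0 : W g ≠ 0 := fun h0 => hg0 (W.injective (by rw [h0, map_zero]))
  have hWg' : IsIntegral (jRing A M ℓ) (W g)⁻¹ := by
    rw [← map_inv₀]
    exact isIntegral_W hW hg'
  obtain ⟨hm, h1⟩ := ord_redInf_eq_zero h hJb P hP hWg0 (isIntegral_W hW hg) hWg'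
  exact ⟨(mem_OZero_iff h g).mpr hm, h1⟩

end Bad

end Fermat.Agent.TR.Unit.IntRed

end
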