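/-
TR / Unit : the Hecke unit `U = f_Δ(q^r) / f_Δ(q)` for `f_Δ = Δ(q)/Δ(q^p)` and an auxiliary
prime `r`.

`U = [Δ(q^r)/Δ(q)] · [Δ(q^p)/Δ(q^{pr})] = u1inv · (u1 ∘ q^p)` with `u1 = Δ(q)/Δ(q^r)` (level `r`).

* series (any commutative ring `A`): `uU A p r`, `uUinv A p r`, `uU_mul_uUinv`,
  `qExpand_u1_eq : qExpand A r (u1 A p) = u1 A p * uU A p r` (and the inverse form),
  `coeffMap_uU`;
* characteristic `p`: `uU k p r = (u1 k r)^(p-1)`, `uUinv k p r = (u1inv k r)^(p-1)`;
* integrality (any `A`): `r¹² · U` and `r¹² · U⁻¹` are integral over every ring over which `J(q)`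
  is; `U`, `U⁻¹` themselves as soon as `r⁻¹²` is integral (`isIntegral_uU`);
* Gauss side: `U`, `U⁻¹` lie in the Gauss ring and reduce to `uU k p r`, `uUinv k p r`;
* function fields (`L` of characteristic `0`, `f : L·F_{Mp}` with `q`-expansion `u1 L p`):
  `β_r f = α_r f · U` in `L·F_{Mpr}` with `U` of `q`-expansion `uU L p r`
  (`exists_heckeUnit`, `beta_f_eq`), and the integrality of `U`, `U⁻¹` over any ring acting on
  `L·F_{Mpr}` over which `J` and `r⁻¹` are integral (`isIntegral_heckeUnit`).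
-/
import Mathlib
import Fermat.Agent.TR.Unit.FDelta

set_option autoImplicit false
set_option linter.style.haveILetI false

noncomputable section

namespace Fermat.Agent.TR.Unit.HeckeUnit

open HahnSeries ModularCurve AlgebraicCurve Fermat.Agent.Lib.Red Fermat.Agent.S28
open Fermat.Agent.ESJ.Cong.LevelGen Fermat.Agent.BAD.TwoVal Fermat.Agent.S28.ModEq
open Fermat.Agent.CAR.V3

/-! ### Series -/

section Series

variable (A : Type*) [CommRing A] (p r : ℕ) [NeZero p] [NeZero r]

/-- `U = [Δ(q^r)/Δ(q)] · [Δ(q^p)/Δ(q^{pr})]`, the quotient `f_Δ(q^r)/f_Δ(q)` for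
`f_Δ = Δ(q)/Δ(q^p)`. -/
def uU : LaurentSeries A := Units.u1inv A r * qExpand A p (Units.u1 A r)

/-- `U⁻¹ = [Δ(q)/Δ(q^r)] · [Δ(q^{pr})/Δ(q^p)]`. -/
def uUinv : LaurentSeries A := Units.u1 A r * qExpand A p (Units.u1inv A r)

theorem uU_mul_uUinv : uU A p r * uUinv A p r = 1 := by
  unfold uU uUinv
  calc Units.u1inv A r * qExpand A p (Units.u1 A r) *
        (Units.u1 A r * qExpand A p (Units.u1inv A r))
      = (Units.u1inv A r * Units.u1 A r) *
          qExpand A p (Units.u1 A r * Units.u1inv A r) := by rw [map_mul]; ring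
    _ = 1 := by rw [Units.u1inv_mul_u1, Units.u1_mul_u1inv, map_one, mul_one]

theorem uUinv_mul_uU : uUinv A p r * uU A p r = 1 := by rw [mul_comm, uU_mul_uUinv]

theorem qExpand_comm (x : LaurentSeries A) :
    qExpand A r (qExpand A p x) = qExpand A p (qExpand A r x) := by
  rw [qExpand_qExpand, qExpand_qExpand]
  exact qExpand_congr (mul_comm r p) x

/-- **`f_Δ(q^r) = f_Δ(q) · U`.** -/
theorem qExpand_u1_eq : qExpand A r (Units.u1 A p) = Units.u1 A p * uU A p r := by
  have h1 : DA A * DAinv A = 1 := DA_mul_DAinv A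
  have h2 : qExpand A p (DAinv A) * qExpand A p (DA A) = 1 := by
    rw [← map_mul, mul_comm, h1, map_one]
  unfold uU Units.u1 Units.u1inv
  simp only [map_mul]
  rw [qExpand_comm A p r (DAinv A)]
  linear_combination
    (-(qExpand A r (DA A) * qExpand A p (qExpand A r (DAinv A)) * qExpand A p (DAinv A) *
        qExpand A p (DA A))) * h1 +
      (-(qExpand A r (DA A) * qExpand A p (qExpand A r (DAinv A)))) * h2

/-- `f_Δ⁻¹(q^r) = f_Δ⁻¹(q) · U⁻¹`. -/
theorem qExpand_u1inv_eq : qExpand A r (Units.u1inv A p) = Units.u1inv A p * uUinv A p r := by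
  have h1 : qExpand A r (Units.u1inv A p) * qExpand A r (Units.u1 A p) = 1 := by
    rw [← map_mul, Units.u1inv_mul_u1, map_one]
  have h2 := qExpand_u1_eq A p r
  have h3 := uU_mul_uUinv A p r
  have h4 := Units.u1_mul_u1inv A p
  rw [h2] at h1
  linear_combination (Units.u1inv A p * uUinv A p r) * h1 -
    (qExpand A r (Units.u1inv A p) * Units.u1 A p * Units.u1inv A p) * h3 -
    (qExpand A r (Units.u1inv A p)) * h4

variable {A} in
theorem coeffMap_uU {B : Type*} [CommRing B] (φ : A →+* B) :
    coeffMap φ (uU A p r) = uU B p r := by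
  unfold uU
  rw [map_mul, coeffMap_qExpand, Units.coeffMap_u1inv, Units.coeffMap_u1]

variable {A} in
theorem coeffMap_uUinv {B : Type*} [CommRing B] (φ : A →+* B) :
    coeffMap φ (uUinv A p r) = uUinv B p r := by
  unfold uUinv
  rw [map_mul, coeffMap_qExpand, Units.coeffMap_u1inv, Units.coeffMap_u1]

theorem uU_ne_zero [Nontrivial A] : uU A p r ≠ 0 := by
  intro h
  have h1 := uU_mul_uUinv A p r
  rw [h, zero_mul] at h1
  exact zero_ne_one h1

theorem uUinv_ne_zero [Nontrivial A] : uUinv A p r ≠ 0 := by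
  intro h
  have h1 := uU_mul_uUinv A p r
  rw [h, mul_zero] at h1
  exact zero_ne_one h1

theorem uUinv_eq_inv (F : Type*) [Field F] : uUinv F p r = (uU F p r)⁻¹ :=
  eq_inv_of_mul_eq_one_right (uU_mul_uUinv F p r)

end Series

/-! ### Characteristic `p` -/

section CharP

variable (k : Type*) [CommRing k] (p r : ℕ) [Fact p.Prime] [NeZero p] [NeZero r] [CharP k p]

/-- In characteristic `p`: `U = (Δ(q)/Δ(q^r))^(p-1)`. -/
theorem uU_charP : uU k p r = Units.u1 k r ^ (p - 1) := by
  have h : qExpand k p (Units.u1 k r) = Units.u1 k r ^ p := by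
    rw [← Units.coeffMap_u1 r (ZMod.castHom (dvd_refl p) k)]
    exact UnitCert.qExpand_coeffMap_zmod k p _
  have hp : Units.u1 k r ^ p = Units.u1 k r ^ (p - 1) * Units.u1 k r := by
    rw [← pow_succ, Nat.sub_add_cancel (Fact.out : p.Prime).pos]
  unfold uU
  rw [h, hp, mul_comm, mul_assoc, Units.u1_mul_u1inv, mul_one]

/-- In characteristic `p`: `U⁻¹ = (Δ(q^r)/Δ(q))^(p-1)`. -/
theorem uUinv_charP : uUinv k p r = Units.u1inv k r ^ (p - 1) := by
  have h : qExpand k p (Units.u1inv k r) = Units.u1inv k r ^ p := by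
    rw [← Units.coeffMap_u1inv r (ZMod.castHom (dvd_refl p) k)]
    exact UnitCert.qExpand_coeffMap_zmod k p _
  have hp : Units.u1inv k r ^ p = Units.u1inv k r ^ (p - 1) * Units.u1inv k r := by
    rw [← pow_succ, Nat.sub_add_cancel (Fact.out : p.Prime).pos]
  unfold uUinv
  rw [h, hp, mul_comm, mul_assoc, Units.u1inv_mul_u1, mul_one]

end CharP

/-! ### Integrality -/

section Integral

variable {p r : ℕ} [NeZero p] [NeZero r] (A : Type*) [CommRing A] {R₀ : Type*} [CommRing R₀]
  [Algebra R₀ (LaurentSeries A)]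

/-- `J(q^{pr})` is integral over any ring over which `J(q^p)` is. -/
theorem isIntegral_qExpand_J (hr : r.Prime) (h : IsIntegral R₀ (jqNModC A p)) :
    IsIntegral R₀ (qExpand A p (jqNModC A r)) := by
  obtain ⟨D⟩ := exists_modEqData r hr
  have h0 := congrArg (qExpand A p) (Units.biEval_Phi_J1 A D)
  rw [Units.map_biEval, map_zero] at h0
  exact Units.isIntegral_of_biEval D.Φ D.Φ_monic h h0

/-- `Δ(q^p)/Δ(q^{pr})` is integral over any ring over which `J(q^{pr})` is. -/
theorem isIntegral_qExpand_u1 (hr : r.Prime) (h : IsIntegral R₀ (qExpand A p (jqNModC A r))) :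
    IsIntegral R₀ (qExpand A p (Units.u1 A r)) := by
  obtain ⟨D⟩ := Units.exists_unitData r hr
  have h0 := congrArg (qExpand A p) (Units.biEval_Psi_u1 A D)
  rw [Units.map_biEval, map_zero] at h0
  exact Units.isIntegral_of_biEval D.Ψ D.Ψ_monic h h0

/-- `r¹² Δ(q^{pr})/Δ(q^p)` is integral over any ring over which `J(q^p)` is. -/
theorem isIntegral_qExpand_yInf (hr : r.Prime) (h : IsIntegral R₀ (jqNModC A p)) :
    IsIntegral R₀ (HahnSeries.C ((r : A) ^ 12) * qExpand A p (Units.u1inv A r)) := by
  obtain ⟨D⟩ := exists_modEqData r hr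
  have h0 := congrArg (qExpand A p) (Units.biEval_Psi_yInf A D)
  rw [Units.map_biEval, map_zero, Units.yInf_eq, map_mul, qExpand_C] at h0
  exact Units.isIntegral_of_biEval D.Ψ D.Ψ_monic h h0

/-- **`r¹² · U` and `r¹² · U⁻¹` are integral over any ring over which `J(q)` is.** -/
theorem isIntegral_C_mul_uU (hp : p.Prime) (hr : r.Prime) (h : IsIntegral R₀ (jqModC A)) :
    IsIntegral R₀ (HahnSeries.C ((r : A) ^ 12) * uU A p r) ∧
      IsIntegral R₀ (HahnSeries.C ((r : A) ^ 12) * uUinv A p r) := by
  have h1 : IsIntegral R₀ (jqNModC A p) := Units.isIntegral_J1 A hp h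
  have h1r : IsIntegral R₀ (jqNModC A r) := Units.isIntegral_J1 A hr h
  have h2 := isIntegral_qExpand_J A hr h1
  constructor
  · have e : HahnSeries.C ((r : A) ^ 12) * uU A p r =
        (HahnSeries.C ((r : A) ^ 12) * Units.u1inv A r) * qExpand A p (Units.u1 A r) := by
      unfold uU
      ring
    rw [e]
    exact (Units.isIntegral_yInf A hr h).mul (isIntegral_qExpand_u1 A hr h2)
  · have e : HahnSeries.C ((r : A) ^ 12) * uUinv A p r =
        Units.u1 A r * (HahnSeries.C ((r : A) ^ 12) * qExpand A p (Units.u1inv A r)) := by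
      unfold uUinv
      ring
    rw [e]
    exact (Units.isIntegral_u1_of_J1 A hr h1r).mul (isIntegral_qExpand_yInf A hr h1)

/-- **`U` and `U⁻¹` are integral** over any ring over which `J(q)` and an inverse `c` of `r¹²`
are. -/
theorem isIntegral_uU (hp : p.Prime) (hr : r.Prime) (h : IsIntegral R₀ (jqModC A))
    {c : LaurentSeries A} (hc : IsIntegral R₀ c) (hcr : c * HahnSeries.C ((r : A) ^ 12) = 1) :
    IsIntegral R₀ (uU A p r) ∧ IsIntegral R₀ (uUinv A p r) := by
  obtain ⟨h1, h2⟩ := isIntegral_C_mul_uU A hp hr h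
  constructor
  · have e : uU A p r = c * (HahnSeries.C ((r : A) ^ 12) * uU A p r) := by
      rw [← mul_assoc, hcr, one_mul]
    rw [e]
    exact hc.mul h1
  · have e : uUinv A p r = c * (HahnSeries.C ((r : A) ^ 12) * uUinv A p r) := by
      rw [← mul_assoc, hcr, one_mul]
    rw [e]
    exact hc.mul h2

end Integral

/-! ### The Gauss side -/

section Gauss

variable {L : Type*} [Field L] (A : ValuationSubring L) {k : Type*} [Field k] (π : A →+* k)
  (p r : ℕ) [NeZero p] [NeZero r]

theorem uU_mem : uU L p r ∈ gaussRing A π :=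
  UnitCert.mem_gaussRing_of_incl A π (uU A p r) (coeffMap_uU p r A.subtype)

theorem red_uU (h : uU L p r ∈ gaussRing A π) : red A π ⟨uU L p r, h⟩ = uU k p r := by
  rw [UnitCert.red_of_incl A π (uU A p r) (coeffMap_uU p r A.subtype) h]
  exact coeffMap_uU p r π

theorem uUinv_mem : uUinv L p r ∈ gaussRing A π :=
  UnitCert.mem_gaussRing_of_incl A π (uUinv A p r) (coeffMap_uUinv p r A.subtype)

theorem red_uUinv (h : uUinv L p r ∈ gaussRing A π) :
    red A π ⟨uUinv L p r, h⟩ = uUinv k p r := by
  rw [UnitCert.red_of_incl A π (uUinv A p r) (coeffMap_uUinv p r A.subtype) h]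
  exact coeffMap_uUinv p r π

end Gauss

/-! ### Function fields -/

section FF

variable {L : Type*} [Field L] [Algebra ℚ L] {M p r : ℕ} [NeZero M] [NeZero p] [NeZero r]
  {f : laurentBaseChange L (modularFunctionFieldFull (M * p))}

omit [NeZero M] in
/-- The `q`-expansion of `β_r f`. -/
theorem coe_beta_f (hf : (f : LaurentSeries L) = Units.u1 L p) :
    ((heckeBetaBar L (M * p) r f : laurentBaseChange L (modularFunctionFieldFull (M * p * r))) :
      LaurentSeries L) = Units.u1 L p * uU L p r := by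
  rw [coe_heckeBetaBar, hf, qExpand_u1_eq]

/-- The `q`-expansion of `α_r f`. -/
theorem coe_alpha_f (hf : (f : LaurentSeries L) = Units.u1 L p) :
    ((heckeAlphaBar L (M * p) r f : laurentBaseChange L (modularFunctionFieldFull (M * p * r))) :
      LaurentSeries L) = Units.u1 L p := by
  rw [coe_heckeAlphaBar, hf]

theorem alpha_f_ne_zero (hf : (f : LaurentSeries L) = Units.u1 L p) :
    heckeAlphaBar L (M * p) r f ≠ 0 := by
  intro h0
  have h1 := coe_alpha_f (r := r) hf
  rw [h0] at h1
  exact UnitCert.u1_ne_zero p L h1.symm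

/-- **The Hecke unit**: `β_r f = α_r f · U` for every `U` with `q`-expansion `uU L p r`. -/
theorem beta_f_eq (hf : (f : LaurentSeries L) = Units.u1 L p)
    {U : laurentBaseChange L (modularFunctionFieldFull (M * p * r))}
    (hU : (U : LaurentSeries L) = uU L p r) :
    heckeBetaBar L (M * p) r f = heckeAlphaBar L (M * p) r f * U := by
  apply Subtype.ext
  rw [coe_beta_f hf, MulMemClass.coe_mul, coe_alpha_f hf, hU]

/-- **The Hecke unit exists** in `L·F_{Mpr}`. -/
theorem exists_heckeUnit (hf : (f : LaurentSeries L) = Units.u1 L p) :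
    ∃ U : laurentBaseChange L (modularFunctionFieldFull (M * p * r)),
      (U : LaurentSeries L) = uU L p r ∧
      heckeBetaBar L (M * p) r f = heckeAlphaBar L (M * p) r f * U := by
  have hU : ((heckeBetaBar L (M * p) r f / heckeAlphaBar L (M * p) r f :
      laurentBaseChange L (modularFunctionFieldFull (M * p * r))) : LaurentSeries L) =
      uU L p r := by
    rw [IntermediateField.coe_div, coe_beta_f hf, coe_alpha_f hf,
      mul_div_cancel_left₀ _ (UnitCert.u1_ne_zero p L)]
  exact ⟨_, hU, beta_f_eq hf hU⟩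

variable {R₁ : Type*} [CommRing R₁]
  [Algebra R₁ ↥(laurentBaseChange L (modularFunctionFieldFull (M * p * r)))]

omit [NeZero M] in
/-- **Integrality of the Hecke unit**: over any ring `R₁` (acting on `L·F_{Mpr}`) over which
`J` and `r⁻¹` are integral, `U` and `U⁻¹` are integral. -/
theorem isIntegral_heckeUnit (hp : p.Prime) (hr : r.Prime)
    {J : laurentBaseChange L (modularFunctionFieldFull (M * p * r))}
    (hJ : (J : LaurentSeries L) = jqModC L) (hJi : IsIntegral R₁ J)
    (hri : IsIntegral R₁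
      (((r : ℕ) : laurentBaseChange L (modularFunctionFieldFull (M * p * r))))⁻¹)
    {U : laurentBaseChange L (modularFunctionFieldFull (M * p * r))}
    (hU : (U : LaurentSeries L) = uU L p r) :
    IsIntegral R₁ U ∧ IsIntegral R₁ U⁻¹ := by
  have hchar : CharZero L := algebraRat.charZero L
  let ι : ↥(laurentBaseChange L (modularFunctionFieldFull (M * p * r))) →+* LaurentSeries L :=
    ((laurentBaseChange L (modularFunctionFieldFull (M * p * r))).val :
      ↥(laurentBaseChange L (modularFunctionFieldFull (M * p * r))) →+* LaurentSeries L)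
  let φ : R₁ →+* LaurentSeries L :=
    ι.comp (algebraMap R₁ ↥(laurentBaseChange L (modularFunctionFieldFull (M * p * r))))
  letI : Algebra R₁ (LaurentSeries L) := φ.toAlgebra
  have fwd : ∀ y : ↥(laurentBaseChange L (modularFunctionFieldFull (M * p * r))),
      IsIntegral R₁ y → IsIntegral R₁ (ι y) := by
    rintro y ⟨P, hP, hP0⟩
    refine ⟨P, hP, ?_⟩
    have h2 := Polynomial.hom_eval₂ P
      (algebraMap R₁ ↥(laurentBaseChange L (modularFunctionFieldFull (M * p * r)))) ι y
    rw [hP0, map_zero] at h2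
    exact h2.symm
  have back : ∀ y : ↥(laurentBaseChange L (modularFunctionFieldFull (M * p * r))),
      IsIntegral R₁ (ι y) → IsIntegral R₁ y := by
    rintro y ⟨P, hP, hP0⟩
    refine ⟨P, hP, Subtype.ext ?_⟩
    have h2 := Polynomial.hom_eval₂ P
      (algebraMap R₁ ↥(laurentBaseChange L (modularFunctionFieldFull (M * p * r)))) ι y
    exact h2.trans hP0
  have hJ' : IsIntegral R₁ (jqModC L) := by
    have h := fwd J hJi
    have e : ι J = jqModC L := hJ
    rwa [e] at h
  have hr0 : ((r : ℕ) : laurentBaseChange L (modularFunctionFieldFull (M * p * r))) ≠ 0 := by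
    have : CharZero ↥(laurentBaseChange L (modularFunctionFieldFull (M * p * r))) :=
      charZero_of_injective_algebraMap
        (algebraMap L ↥(laurentBaseChange L (modularFunctionFieldFull (M * p * r)))).injective
    exact Nat.cast_ne_zero.mpr hr.ne_zero
  have hc : IsIntegral R₁
      (ι ((((r : ℕ) : laurentBaseChange L (modularFunctionFieldFull (M * p * r))))⁻¹ ^ 12)) :=
    fwd _ (hri.pow 12)
  have hcr : ι ((((r : ℕ) : laurentBaseChange L (modularFunctionFieldFull (M * p * r))))⁻¹ ^ 12) *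
      HahnSeries.C ((r : L) ^ 12) = 1 := by
    have e : HahnSeries.C ((r : L) ^ 12) =
        ι (((r : ℕ) : laurentBaseChange L (modularFunctionFieldFull (M * p * r))) ^ 12) := by
      rw [map_pow, map_pow, map_natCast, map_natCast]
    rw [e, ← map_mul, ← mul_pow, inv_mul_cancel₀ hr0, one_pow, map_one]
  obtain ⟨h1, h2⟩ := isIntegral_uU L hp hr hJ' hc hcr
  refine ⟨back _ ?_, back _ ?_⟩
  · have e : ι U = uU L p r := hU
    rw [e]
    exact h1
  · have e : ι U⁻¹ = uUinv L p r := by
      show ((U⁻¹ : laurentBaseChange L (modularFunctionFieldFull (M * p * r))) :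
        LaurentSeries L) = _
      rw [IntermediateField.coe_inv, hU, uUinv_eq_inv]
    rw [e]
    exact h2

end FF

end Fermat.Agent.TR.Unit.HeckeUnit

end
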