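/-
TR / Unit : (EIS-unit) — the norm along `α_r` of `β_r f_Δ` and its reduction.

`p` the residue characteristic, `M` the level prime to `p`, `r` an auxiliary prime (a unit of
`A`), `α_r, β_r : L·F_{Mp} → L·F_{Mpr}` the two degeneracy maps, `Nm = Nm_{α_r}`.

* `isIntegral_norm_of_isIntegral` : norms of elements integral over `A[J(q), J(q^p)]` are
  integral over it;
* `isIntegral_heckeUnit_jRing` : the Hecke unit `U = β_r f_Δ / α_r f_Δ` and `U⁻¹` are integral
  over `A[J(q), J(q^p)]`;
* `norm_alpha_mul` : `Nm(α_r x · V) = x^(r+1) · Nm V`;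
* `ord_redInf_norm_of_unit`, `ord_redZero_norm_of_unit` : for `y = α_r x · V` with `V`, `V⁻¹`
  integral over `A[J(q), J(q^p)]`:  `ord_s(red (Nm y)) = (r+1) · ord_s(red x)` at every
  non-cuspidal place `s`, on each of the two components;
* **`ord_redInf_norm_beta_f`** : `ord_s(red_∞ Nm(β_r f_Δ)) = (r+1) · ord_s(red_∞ f_Δ)`;
  **`ord_redZero_norm_beta_g`** : the same on the component `0` for `g = p¹² · f_Δ⁻¹`.
-/
import Mathlib
import Fermat.Agent.TR.Unit.HeckeUnit
import Fermat.Agent.TR.Unit.IntRed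

set_option autoImplicit false
set_option linter.style.haveILetI false

noncomputable section

namespace Fermat.Agent.TR.Unit.HeckeUnitRed

open HahnSeries ModularCurve AlgebraicCurve Fermat.Agent.Lib.Red Fermat.Agent.S28
open Fermat.Agent.ESJ.Cong.LevelGen Fermat.Agent.BAD.TwoVal Fermat.Agent.S28.ModEq
open Fermat.Agent.CAR.V3 Fermat.Agent.TR.Unit.HeckeUnit Fermat.Agent.TR.Unit.IntRed
open Fermat.Agent.TR.Unit

section Norm

variable {L : Type*} [Field L] [Algebra ℚ L] {A : ValuationSubring L} {k : Type} [Field k]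
  {π : A →+* k} {M p r : ℕ} [NeZero M] [NeZero p] [NeZero r]
  {W : laurentBaseChange L (modularFunctionFieldFull (M * p)) ≃ₐ[L]
    laurentBaseChange L (modularFunctionFieldFull (M * p))}

/-- Norms (along `α_r`) of elements integral over `A[J(q), J(q^p)]` are integral over it. -/
theorem isIntegral_norm_of_isIntegral
    {V : laurentBaseChange L (modularFunctionFieldFull (M * p * r))}
    (hV : letI := algebraAlong (heckeAlphaBar L (M * p) r); IsIntegral (jRing A M p) V) :
    letI := algebraAlong (heckeAlphaBar L (M * p) r)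
    IsIntegral (jRing A M p)
      (Algebra.norm (laurentBaseChange L (modularFunctionFieldFull (M * p))) V) := by
  letI := algebraAlong (heckeAlphaBar L (M * p) r)
  haveI : IsScalarTower (jRing A M p) (laurentBaseChange L (modularFunctionFieldFull (M * p)))
      (laurentBaseChange L (modularFunctionFieldFull (M * p * r))) :=
    IsScalarTower.of_algebraMap_eq fun x => rfl
  exact Algebra.isIntegral_norm (laurentBaseChange L (modularFunctionFieldFull (M * p))) hV

/-- **The Hecke unit is integral over `A[J(q), J(q^p)]`**, together with its inverse. -/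
theorem isIntegral_heckeUnit_jRing (hp : p.Prime) (hr : r.Prime) (hrA : ((r : L))⁻¹ ∈ A)
    {U : laurentBaseChange L (modularFunctionFieldFull (M * p * r))}
    (hU : (U : LaurentSeries L) = uU L p r) :
    letI := algebraAlong (heckeAlphaBar L (M * p) r)
    IsIntegral (jRing A M p) U ∧ IsIntegral (jRing A M p) U⁻¹ := by
  letI := algebraAlong (heckeAlphaBar L (M * p) r)
  have hJ : ((heckeAlphaBar L (M * p) r (heckeAlphaBar L M p (jLevel L M)) :
      laurentBaseChange L (modularFunctionFieldFull (M * p * r))) : LaurentSeries L) =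
      jqModC L := by
    rw [coe_heckeAlphaBar, FDelta.coe_alpha_j]
  have hJi : IsIntegral (jRing A M p)
      (heckeAlphaBar L (M * p) r (heckeAlphaBar L M p (jLevel L M))) :=
    isIntegral_algebraMap (R := jRing A M p)
      (x := (⟨heckeAlphaBar L M p (jLevel L M), alpha_j_mem_jRing⟩ : jRing A M p))
  have hri : IsIntegral (jRing A M p)
      (((r : ℕ) : laurentBaseChange L (modularFunctionFieldFull (M * p * r))))⁻¹ := by
    have e : (((r : ℕ) : laurentBaseChange L (modularFunctionFieldFull (M * p * r))))⁻¹ =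
        heckeAlphaBar L (M * p) r
          (algebraMap L ↥(laurentBaseChange L (modularFunctionFieldFull (M * p))) ((r : L))⁻¹) := by
      rw [AlgHom.commutes, map_inv₀, map_natCast]
    rw [e]
    exact isIntegral_algebraMap (R := jRing A M p)
      (x := (⟨algebraMap L ↥(laurentBaseChange L (modularFunctionFieldFull (M * p))) ((r : L))⁻¹,
        algebraMap_mem_jRing (⟨((r : L))⁻¹, hrA⟩ : A)⟩ : jRing A M p))
  exact HeckeUnit.isIntegral_heckeUnit hp hr hJ hJi hri hU

/-- `Nm_{α_r}(α_r x · V) = x^(r+1) · Nm_{α_r}(V)`. -/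
theorem norm_alpha_mul (hdeg : finrankAlong L (heckeAlphaBar L (M * p) r) = r + 1)
    (x : laurentBaseChange L (modularFunctionFieldFull (M * p)))
    (V : laurentBaseChange L (modularFunctionFieldFull (M * p * r))) :
    letI := algebraAlong (heckeAlphaBar L (M * p) r)
    Algebra.norm (laurentBaseChange L (modularFunctionFieldFull (M * p)))
        (heckeAlphaBar L (M * p) r x * V) =
      x ^ (r + 1) *
        Algebra.norm (laurentBaseChange L (modularFunctionFieldFull (M * p))) V := by
  letI := algebraAlong (heckeAlphaBar L (M * p) r)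
  have h1 : Algebra.norm (laurentBaseChange L (modularFunctionFieldFull (M * p)))
      (heckeAlphaBar L (M * p) r x) = x ^ (r + 1) := by
    have h2 := Algebra.norm_algebraMap
      (S := ↥(laurentBaseChange L (modularFunctionFieldFull (M * p * r)))) x
    rw [← hdeg]
    exact h2
  rw [map_mul, h1]

variable {Jb : modularFunctionFieldFullC k M}

/-- **Column `∞`**: for `y = α_r x · V` with `V`, `V⁻¹` integral over `A[J(q), J(q^p)]` and
`x` a unit of `O_∞`:  `ord_s(red_∞ Nm y) = (r+1) · ord_s(red_∞ x)` at every non-cuspidal `s`. -/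
theorem ord_redInf_norm_of_unit (h : BadSetup A π M p)
    (hdeg : finrankAlong L (heckeAlphaBar L (M * p) r) = r + 1)
    (hJb : (Jb : LaurentSeries k) = jqModC k)
    (P : Place k ↥(modularFunctionFieldFullC k M)) (hP : 0 ≤ P.ord Jb)
    {x : laurentBaseChange L (modularFunctionFieldFull (M * p))} (hx : x ∈ OInf h)
    (hx0 : redInf h ⟨x, hx⟩ ≠ 0)
    {V : laurentBaseChange L (modularFunctionFieldFull (M * p * r))} (hV0 : V ≠ 0)
    (hV : letI := algebraAlong (heckeAlphaBar L (M * p) r); IsIntegral (jRing A M p) V)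
    (hV' : letI := algebraAlong (heckeAlphaBar L (M * p) r); IsIntegral (jRing A M p) V⁻¹) :
    letI := algebraAlong (heckeAlphaBar L (M * p) r)
    ∃ hm : Algebra.norm (laurentBaseChange L (modularFunctionFieldFull (M * p)))
        (heckeAlphaBar L (M * p) r x * V) ∈ OInf h,
      P.ord (redInf h ⟨_, hm⟩) = ((r : ℤ) + 1) * P.ord (redInf h ⟨x, hx⟩) := by
  letI := algebraAlong (heckeAlphaBar L (M * p) r)
  have hN := isIntegral_norm_of_isIntegral hV
  have hN' := isIntegral_norm_of_isIntegral hV'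
  have hmul : Algebra.norm (laurentBaseChange L (modularFunctionFieldFull (M * p))) V *
      Algebra.norm (laurentBaseChange L (modularFunctionFieldFull (M * p))) V⁻¹ = 1 := by
    rw [← map_mul, mul_inv_cancel₀ hV0, map_one]
  have hN0 : Algebra.norm (laurentBaseChange L (modularFunctionFieldFull (M * p))) V ≠ 0 := by
    intro h0
    rw [h0, zero_mul] at hmul
    exact zero_ne_one hmul
  have hinv : (Algebra.norm (laurentBaseChange L (modularFunctionFieldFull (M * p))) V)⁻¹ =
      Algebra.norm (laurentBaseChange L (modularFunctionFieldFull (M * p))) V⁻¹ :=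
    (eq_inv_of_mul_eq_one_right hmul).symm
  rw [← hinv] at hN'
  obtain ⟨hmN, hordN⟩ := ord_redInf_eq_zero h hJb P hP hN0 hN hN'
  have hmNinv : (Algebra.norm (laurentBaseChange L (modularFunctionFieldFull (M * p))) V)⁻¹ ∈
      OInf h := (ord_redInf_nonneg h hJb P hP hN').1
  have hredN0 : redInf h ⟨_, hmN⟩ ≠ 0 := redInf_ne_zero_of_inv_mem h _ hN0 hmN hmNinv
  have e := norm_alpha_mul hdeg x V
  have hm : Algebra.norm (laurentBaseChange L (modularFunctionFieldFull (M * p)))
      (heckeAlphaBar L (M * p) r x * V) ∈ OInf h := by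
    rw [e]
    exact (OInf h).mul_mem _ _ ((OInf h).pow_mem hx _) hmN
  refine ⟨hm, ?_⟩
  have e2 : redInf h ⟨_, hm⟩ = redInf h ⟨x, hx⟩ ^ (r + 1) * redInf h ⟨_, hmN⟩ := by
    rw [← map_pow, ← map_mul]
    exact redInf_congr h e hm ((OInf h).mul_mem _ _ ((OInf h).pow_mem hx _) hmN)
  rw [e2, P.ord_mul (pow_ne_zero _ hx0) hredN0, hordN, add_zero, ← zpow_natCast, P.ord_zpow]
  push_cast
  ring

/-- **Column `0`**: for `y = α_r x · V` with `V`, `V⁻¹` integral over `A[J(q), J(q^p)]` and
`x` a unit of `O_0`:  `ord_s(red_0 Nm y) = (r+1) · ord_s(red_0 x)` at every non-cuspidal `s`. -/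
theorem ord_redZero_norm_of_unit (h : BadSetup A π M p) (hW : IsAL M p W)
    (hdeg : finrankAlong L (heckeAlphaBar L (M * p) r) = r + 1)
    (hJb : (Jb : LaurentSeries k) = jqModC k)
    (P : Place k ↥(modularFunctionFieldFullC k M)) (hP : 0 ≤ P.ord Jb)
    {x : laurentBaseChange L (modularFunctionFieldFull (M * p))} (hx : x ∈ OZero h W)
    (hx0 : redZero h W ⟨x, hx⟩ ≠ 0)
    {V : laurentBaseChange L (modularFunctionFieldFull (M * p * r))} (hV0 : V ≠ 0)
    (hV : letI := algebraAlong (heckeAlphaBar L (M * p) r); IsIntegral (jRing A M p) V)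
    (hV' : letI := algebraAlong (heckeAlphaBar L (M * p) r); IsIntegral (jRing A M p) V⁻¹) :
    letI := algebraAlong (heckeAlphaBar L (M * p) r)
    ∃ hm : Algebra.norm (laurentBaseChange L (modularFunctionFieldFull (M * p)))
        (heckeAlphaBar L (M * p) r x * V) ∈ OZero h W,
      P.ord (redZero h W ⟨_, hm⟩) = ((r : ℤ) + 1) * P.ord (redZero h W ⟨x, hx⟩) := by
  letI := algebraAlong (heckeAlphaBar L (M * p) r)
  have hN := isIntegral_norm_of_isIntegral hV
  have hN' := isIntegral_norm_of_isIntegral hV'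
  have hmul : Algebra.norm (laurentBaseChange L (modularFunctionFieldFull (M * p))) V *
      Algebra.norm (laurentBaseChange L (modularFunctionFieldFull (M * p))) V⁻¹ = 1 := by
    rw [← map_mul, mul_inv_cancel₀ hV0, map_one]
  have hN0 : Algebra.norm (laurentBaseChange L (modularFunctionFieldFull (M * p))) V ≠ 0 := by
    intro h0
    rw [h0, zero_mul] at hmul
    exact zero_ne_one hmul
  have hinv : (Algebra.norm (laurentBaseChange L (modularFunctionFieldFull (M * p))) V)⁻¹ =
      Algebra.norm (laurentBaseChange L (modularFunctionFieldFull (M * p))) V⁻¹ :=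
    (eq_inv_of_mul_eq_one_right hmul).symm
  rw [← hinv] at hN'
  obtain ⟨hmN, hordN⟩ := ord_redZero_eq_zero h hW hJb P hP hN0 hN hN'
  have hmNinv : (Algebra.norm (laurentBaseChange L (modularFunctionFieldFull (M * p))) V)⁻¹ ∈
      OZero h W := (ord_redZero_nonneg h hW hJb P hP hN').1
  have hredN0 : redZero h W ⟨_, hmN⟩ ≠ 0 := redZero_ne_zero_of_inv_mem h _ hN0 hmN hmNinv
  have e := norm_alpha_mul hdeg x V
  have hm' : x ^ (r + 1) *
      Algebra.norm (laurentBaseChange L (modularFunctionFieldFull (M * p))) V ∈ OZero h W :=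
    (OZero h W).mul_mem _ _ ((OZero h W).pow_mem hx _) hmN
  have hm : Algebra.norm (laurentBaseChange L (modularFunctionFieldFull (M * p)))
      (heckeAlphaBar L (M * p) r x * V) ∈ OZero h W := by
    rw [e]
    exact hm'
  refine ⟨hm, ?_⟩
  have e1 : (⟨_, hm⟩ : OZero h W) = ⟨_, hm'⟩ := Subtype.ext e
  have e2 : redZero h W ⟨_, hm⟩ = redZero h W ⟨x, hx⟩ ^ (r + 1) * redZero h W ⟨_, hmN⟩ := by
    rw [← map_pow, ← map_mul, e1]
    rfl
  rw [e2, P.ord_mul (pow_ne_zero _ hx0) hredN0, hordN, add_zero, ← zpow_natCast, P.ord_zpow]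
  push_cast
  ring

variable {f : laurentBaseChange L (modularFunctionFieldFull (M * p))}

/-- **(EIS-unit), column `∞`**:
`ord_s(red_∞ Nm_{α_r}(β_r f_Δ)) = (r+1) · ord_s(red_∞ f_Δ)` at every non-cuspidal place `s`. -/
theorem ord_redInf_norm_beta_f (h : BadSetup A π M p) (hr : r.Prime) (hrA : ((r : L))⁻¹ ∈ A)
    (hdeg : finrankAlong L (heckeAlphaBar L (M * p) r) = r + 1)
    (hJb : (Jb : LaurentSeries k) = jqModC k)
    (P : Place k ↥(modularFunctionFieldFullC k M)) (hP : 0 ≤ P.ord Jb)
    (hf : (f : LaurentSeries L) = Units.u1 L p) :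
    letI := algebraAlong (heckeAlphaBar L (M * p) r)
    ∃ hm : Algebra.norm (laurentBaseChange L (modularFunctionFieldFull (M * p)))
        (heckeBetaBar L (M * p) r f) ∈ OInf h,
      P.ord (redInf h ⟨_, hm⟩) =
        ((r : ℤ) + 1) * P.ord (redInf h ⟨f, FDelta.f_mem_OInf h hf⟩) := by
  letI := algebraAlong (heckeAlphaBar L (M * p) r)
  obtain ⟨U, hU, hβ⟩ := exists_heckeUnit (r := r) hf
  obtain ⟨hUi, hUi'⟩ := isIntegral_heckeUnit_jRing (A := A) h.hℓ hr hrA hU
  have hU0 : U ≠ 0 := by
    intro h0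
    rw [h0] at hU
    exact uU_ne_zero L p r hU.symm
  rw [hβ]
  exact ord_redInf_norm_of_unit h hdeg hJb P hP (FDelta.f_mem_OInf h hf)
    (FDelta.redInf_f_ne_zero h hf _) hU0 hUi hUi'

/-- **(EIS-unit), column `0`**: for `g = p¹² · f_Δ⁻¹`,
`ord_s(red_0 Nm_{α_r}(β_r g)) = (r+1) · ord_s(red_0 g)` at every non-cuspidal place `s`. -/
theorem ord_redZero_norm_beta_g (h : BadSetup A π M p) (hW : IsAL M p W) (hr : r.Prime)
    (hrA : ((r : L))⁻¹ ∈ A)
    (hdeg : finrankAlong L (heckeAlphaBar L (M * p) r) = r + 1)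
    (hJb : (Jb : LaurentSeries k) = jqModC k)
    (P : Place k ↥(modularFunctionFieldFullC k M)) (hP : 0 ≤ P.ord Jb)
    (hf : (f : LaurentSeries L) = Units.u1 L p) :
    letI := algebraAlong (heckeAlphaBar L (M * p) r)
    ∃ hm : Algebra.norm (laurentBaseChange L (modularFunctionFieldFull (M * p)))
        (heckeBetaBar L (M * p) r
          (((p : ℕ) : laurentBaseChange L (modularFunctionFieldFull (M * p))) ^ 12 * f⁻¹)) ∈
          OZero h W,
      P.ord (redZero h W ⟨_, hm⟩) =
        ((r : ℤ) + 1) * P.ord (redZero h W ⟨_, FDelta.g_mem_OZero h hW hf⟩) := by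
  letI := algebraAlong (heckeAlphaBar L (M * p) r)
  obtain ⟨U, hU, hβ⟩ := exists_heckeUnit (r := r) hf
  obtain ⟨hUi, hUi'⟩ := isIntegral_heckeUnit_jRing (A := A) h.hℓ hr hrA hU
  have hU0 : U ≠ 0 := by
    intro h0
    rw [h0] at hU
    exact uU_ne_zero L p r hU.symm
  have hβg : heckeBetaBar L (M * p) r
      (((p : ℕ) : laurentBaseChange L (modularFunctionFieldFull (M * p))) ^ 12 * f⁻¹) =
      heckeAlphaBar L (M * p) r
        (((p : ℕ) : laurentBaseChange L (modularFunctionFieldFull (M * p))) ^ 12 * f⁻¹) * U⁻¹ := by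
    rw [map_mul, map_mul, map_pow, map_pow, map_natCast, map_natCast, map_inv₀, map_inv₀, hβ,
      mul_inv]
    exact (mul_assoc _ _ _).symm
  rw [hβg]
  have hUi'' : IsIntegral (jRing A M p) (U⁻¹)⁻¹ := by
    rw [inv_inv]
    exact hUi
  exact ord_redZero_norm_of_unit h hW hdeg hJb P hP (FDelta.g_mem_OZero h hW hf)
    (FDelta.redZero_g_ne_zero h hW hf _) (inv_ne_zero hU0) hUi' hUi''

end Norm

end Fermat.Agent.TR.Unit.HeckeUnitRed

end
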